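import Mathlib
import Fermat.Agent.S18.A.Hurwitz

/-!
# PROJECT I (S37), slice I-1b-diff, step (D1): `l(K) = g` for the canonical divisor `K = div(dx)`

For a function field `F/K` (`K` algebraically closed, any characteristic) with a separating element
`x` and Riemann genus `g` (`NonSpecial.RiemannHyp K F g`), the divisor

  `K_x := W - 2 (x)_∞`   (`W` the different divisor of `F / K(x)`, i.e. `K_x = div(dx)`)

has `l(K_x) = g`.  Proof: the two Dedekind-Weber counts `DualChart.exists_counts`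
(`l(r (x)_∞) = ∑ max 0 (r - d_i + 1)`, `l(r (x)_∞ + W) = ∑ max 0 (r + d_i + 1)`) at `r = 0`
(`l(0) = 1`: exactly one `d_i = 0`, the others `≥ 1`) and `r = -2`, and `g = 1 - n + ∑ d_i`
(`HurwitzCore.hurwitz_of_counts`).
-/

set_option autoImplicit false

namespace Fermat.Agent.S37.Diff.CanonicalCount

open AlgebraicCurve IntermediateField Fermat.Agent.S24.FF Fermat.Agent.S18.A

universe u w

variable {K : Type w} {F : Type u} [Field K] [Field F] [Algebra K F] [IsAlgClosed K] {x : F}

/-- arithmetic core: nonnegative integers `max 0 (1 - d i)` summing to `1` -/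
theorem sum_max_sub_one {ι : Type*} [Fintype ι] (d : ι → ℤ)
    (h : ∑ i, max 0 (1 - d i) = 1) :
    ∑ i, max 0 (d i - 1) = ∑ i, d i - (Fintype.card ι : ℤ) + 1 := by
  have hle : ∀ i, max 0 (1 - d i) ≤ 1 := by
    intro i
    have h1 : max 0 (1 - d i) ≤ ∑ j, max 0 (1 - d j) :=
      Finset.single_le_sum (f := fun j => max 0 (1 - d j)) (fun j _ => le_max_left _ _)
        (Finset.mem_univ i)
    rw [h] at h1
    exact h1
  have hterm : ∀ i, max 0 (d i - 1) = (d i - 1) + max 0 (1 - d i) := by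
    intro i
    have := hle i
    rcases le_or_gt 1 (d i) with h1 | h1
    · rw [max_eq_right (by omega : (0 : ℤ) ≤ d i - 1), max_eq_left (by omega : 1 - d i ≤ 0)]
      ring
    · have h2 : max 0 (1 - d i) = 1 - d i := max_eq_right (by omega)
      rw [h2] at this ⊢
      rw [max_eq_left (by omega : d i - 1 ≤ 0)]
      ring
  calc ∑ i, max 0 (d i - 1) = ∑ i, ((d i - 1) + max 0 (1 - d i)) :=
        Finset.sum_congr rfl fun i _ => hterm i
    _ = ∑ i, d i - (Fintype.card ι : ℤ) + 1 := by
        rw [Finset.sum_add_distrib, h, Finset.sum_sub_distrib]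
        simp

/-- **(D1)** `l(W - 2 (x)_∞) = g`, in the shape `(-2) • (x)_∞ + W` of `DualChart.exists_counts` -/
theorem ell_canonical (hx : IsFF K x) (hsep : Algebra.IsSeparable K⟮x⟯ F) {g : ℕ}
    (hR : Fermat.Agent.S18.NonSpecial.RiemannHyp K F g) :
    Defs.ell ((-2 : ℤ) • FibreSep.poleDiv hx hsep + DiffDivisor.diffDivisor hx hsep) = g := by
  obtain ⟨d, h1, h2⟩ := Hurwitz.exists_counts_ell hx hsep
  have hg := (HurwitzCore.hurwitz_of_counts hx hsep hR (FibreSep.poleDiv hx hsep)
    (DiffDivisor.diffDivisor hx hsep) (FibreSep.degree_poleDiv hx hsep) (Fintype.card_fin _)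
    (DiffDivisor.diffDivisor_apply hx hsep) d h1 h2).2
  have h0 : ∑ i, max 0 (1 - d i) = 1 := by
    have e := h1 0
    have hz : (Defs.ell (0 : Divisor K F) : ℤ) = 1 := by
      have := hR.ell_zero
      exact_mod_cast this
    rw [zero_smul, hz] at e
    have e2 : ∑ i, max 0 (0 - d i + 1) = ∑ i, max 0 (1 - d i) :=
      Finset.sum_congr rfl fun i _ => by rw [zero_sub, neg_add_eq_sub]
    rw [← e2]
    exact e.symm
  have hk := h2 (-2)
  have hsum : ∑ i, max 0 ((-2 : ℤ) + d i + 1) = ∑ i, max 0 (d i - 1) :=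
    Finset.sum_congr rfl fun i _ => by ring_nf
  rw [hsum, sum_max_sub_one d h0, Fintype.card_fin] at hk
  have : (Defs.ell ((-2 : ℤ) • FibreSep.poleDiv hx hsep + DiffDivisor.diffDivisor hx hsep) : ℤ) =
      (g : ℤ) := by
    rw [hk, hg]; ring
  exact_mod_cast this

/-- **(D1)** `l(W - 2 (x)_∞) = g` -/
theorem ell_canonical' (hx : IsFF K x) (hsep : Algebra.IsSeparable K⟮x⟯ F) {g : ℕ}
    (hR : Fermat.Agent.S18.NonSpecial.RiemannHyp K F g) :
    Module.finrank K (riemannRochSpace
      (DiffDivisor.diffDivisor hx hsep - (2 : ℤ) • FibreSep.poleDiv hx hsep)) = g := by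
  have h := ell_canonical hx hsep hR
  unfold Defs.ell at h
  have e : DiffDivisor.diffDivisor hx hsep - (2 : ℤ) • FibreSep.poleDiv hx hsep =
      (-2 : ℤ) • FibreSep.poleDiv hx hsep + DiffDivisor.diffDivisor hx hsep := by
    rw [neg_smul]; abel
  rw [e]
  exact h

theorem finite_canonical (hx : IsFF K x) (hsep : Algebra.IsSeparable K⟮x⟯ F) {g : ℕ}
    (hR : Fermat.Agent.S18.NonSpecial.RiemannHyp K F g) :
    Module.Finite K (riemannRochSpace
      (DiffDivisor.diffDivisor hx hsep - (2 : ℤ) • FibreSep.poleDiv hx hsep)) :=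
  hR.finite _

end Fermat.Agent.S37.Diff.CanonicalCount
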