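/-
PROJECT I (S37), slice I-1b-diff, part (D2) (helper23): REDUCTION PRESERVES INTEGRALITY OVER A
SUBRING OF THE BASE.

Abstract setting of `S18/C/UnramVal`: `E ⊆ F` fields, `O` a valuation ring of `F` with
residue map `red : O → κ`, `V = O ∩ E` with residue map `redV : V → κ₀`, and a family `t`
with `Hyp E O red redV t` (an `E`-basis of `F` contained in `O` whose residues are independent:
an "orthonormal basis").  Let `φ : S → E`, `ψ : T → κ₀` be ring homomorphisms such that the
elements of `φ(S)` lying in `V` reduce into `ψ(T)` (`hpoly`).  Then: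

  if `f ∈ O` and multiplication by `f` has a matrix with entries in `φ(S)` in SOME `E`-basis of
  `F`, then `red f` is a root of a monic polynomial with coefficients in `ψ(T)`
  (`exists_monic_red`).

Used with `E = RatFunc L`, `κ₀ = RatFunc k`, `S = L[X]`, `T = k[X]` and
`φ = algebraMap` (finite chart: `f` integral over `L[x]`) or `φ = aeval X⁻¹` (chart at infinity).

Proof: the characteristic polynomial of multiplication by `f` has coefficients in `φ(S)` (second
basis) and in `V` (orthonormal basis, `Hyp.repr_mem_below`); reduce Cayley-Hamilton.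
-/
import Mathlib
import Fermat.Agent.S18.C.UnramVal

set_option autoImplicit false

noncomputable section

namespace Fermat.Agent.S37.Diff.IntegralRed

open Polynomial Module Fermat.Agent.S18.C.UnramVal

variable {E : Type*} [Field E] {F : Type*} [Field F] [Algebra E F] [FiniteDimensional E F]
variable {κ₀ : Type*} [Field κ₀] {κ : Type*} [Field κ] [Algebra κ₀ κ]
variable {O : ValuationSubring F} {red : ↥O →+* κ} {redV : ↥(below E O) →+* κ₀}
variable {ι : Type*} [Fintype ι] [DecidableEq ι] {t : ι → ↥O}
variable {S : Type*} [CommRing S] {T : Type*} [CommRing T]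

/-- The characteristic polynomial of multiplication by `f`, over `E`. -/
def chi (f : F) : E[X] := (Algebra.lmul E F f).charpoly

theorem chi_monic (f : F) : (chi (E := E) f).Monic := LinearMap.charpoly_monic _

theorem chi_eq_charpoly_leftMulMatrix {κ' : Type*} [Fintype κ'] [DecidableEq κ']
    (b : Basis κ' E F) (f : F) :
    chi (E := E) f = (Algebra.leftMulMatrix b f).charpoly := by
  rw [Algebra.leftMulMatrix_apply, LinearMap.charpoly_toMatrix]
  rfl

/-- Cayley-Hamilton for multiplication by `f`. -/
theorem aeval_chi (f : F) : aeval f (chi (E := E) f) = 0 := by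
  have h := LinearMap.aeval_self_charpoly (Algebra.lmul E F f)
  have h2 : aeval (Algebra.lmul E F f) (chi (E := E) f) =
      Algebra.lmul E F (aeval f (chi (E := E) f)) :=
    (Polynomial.aeval_algHom_apply (Algebra.lmul E F) f _)
  have h3 : Algebra.lmul E F (aeval f (chi (E := E) f)) = 0 := by
    rw [← h2]; exact h
  have h4 := congrArg (fun φ : Module.End E F => φ 1) h3
  simpa using h4

/-- If multiplication by `f` has a matrix with entries in `φ(S)` in the basis `b`, the
coefficients of `chi f` lie in `φ(S)`. -/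
theorem chi_coeff_mem_range (φ : S →+* E) {κ' : Type*} [Fintype κ'] [DecidableEq κ']
    (b : Basis κ' E F) (f : F)
    (hb : ∀ i j, ∃ s : S, b.repr (f * b j) i = φ s) (l : ℕ) :
    ∃ s : S, (chi (E := E) f).coeff l = φ s := by
  choose p hp using hb
  set M₀ : Matrix κ' κ' S := Matrix.of p with hM₀
  have hM : Algebra.leftMulMatrix b f = M₀.map φ := by
    ext i j
    rw [Algebra.leftMulMatrix_eq_repr_mul, Matrix.map_apply, hM₀, Matrix.of_apply, hp]
  refine ⟨M₀.charpoly.coeff l, ?_⟩
  rw [chi_eq_charpoly_leftMulMatrix b, hM, Matrix.charpoly_map, Polynomial.coeff_map]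

variable (h : Hyp E O red redV t)

include h in
/-- For `f ∈ O`, the coefficients of `chi f` lie in `V = O ∩ E`. -/
theorem chi_coeff_mem_below (f : ↥O) (l : ℕ) :
    (chi (E := E) (f : F)).coeff l ∈ below E O := by
  set M₁ : Matrix ι ι ↥(below E O) :=
    Matrix.of fun i j => ⟨h.basisE.repr ((f * t j : ↥O) : F) i, h.repr_mem_below (f * t j) i⟩
    with hM₁
  have hM : Algebra.leftMulMatrix h.basisE (f : F) =
      M₁.map ((below E O).subtype) := by
    ext i j
    rw [Algebra.leftMulMatrix_eq_repr_mul, Matrix.map_apply, hM₁, Matrix.of_apply, h.basisE_apply]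
    rfl
  rw [chi_eq_charpoly_leftMulMatrix h.basisE, hM, Matrix.charpoly_map, Polynomial.coeff_map]
  exact (M₁.charpoly.coeff l).2

include h in
/-- **Reduction preserves integrality over a subring of the base.** -/
theorem exists_monic_red (φ : S →+* E) (ψ : T →+* κ₀)
    (hpoly : ∀ (s : S) (hs : φ s ∈ below E O), ∃ q : T, redV ⟨_, hs⟩ = ψ q)
    {κ' : Type*} [Fintype κ'] [DecidableEq κ'] (b : Basis κ' E F) (f : ↥O)
    (hb : ∀ i j, ∃ s : S, b.repr ((f : F) * b j) i = φ s) :
    ∃ P : T[X], P.Monic ∧ eval₂ ((algebraMap κ₀ κ).comp ψ) (red f) P = 0 := by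
  classical
  -- the coefficients of `chi f`, in `V`
  set c : ℕ → ↥(below E O) :=
    fun l => ⟨(chi (E := E) (f : F)).coeff l, chi_coeff_mem_below h f l⟩ with hc
  set n := (chi (E := E) (f : F)).natDegree with hn
  -- Cayley-Hamilton inside `O`
  have hO : ∑ l ∈ Finset.range (n + 1), incl E O (c l) * f ^ l = 0 := by
    apply Subtype.ext
    have h0 := aeval_chi (E := E) (f : F)
    rw [aeval_eq_sum_range] at h0
    rw [ZeroMemClass.coe_zero, ← h0]
    rw [show ((∑ l ∈ Finset.range (n + 1), incl E O (c l) * f ^ l : ↥O) : F) =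
      ∑ l ∈ Finset.range (n + 1), ((incl E O (c l) * f ^ l : ↥O) : F) from
        map_sum O.subtype _ _]
    refine Finset.sum_congr rfl fun l _ => ?_
    rw [Algebra.smul_def]
    rfl
  -- reduce
  have hred : ∑ l ∈ Finset.range (n + 1), algebraMap κ₀ κ (redV (c l)) * red f ^ l = 0 := by
    have h1 := congrArg red hO
    rw [map_sum, map_zero] at h1
    rw [← h1]
    refine Finset.sum_congr rfl fun l _ => ?_
    rw [map_mul, map_pow, h.compat]
  -- the reduced polynomial
  set Pbar : κ₀[X] := ∑ l ∈ Finset.range (n + 1), C (redV (c l)) * X ^ l with hPbar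
  have hcoeff : ∀ m, Pbar.coeff m = if m < n + 1 then redV (c m) else 0 := by
    intro m
    rw [hPbar, finset_sum_coeff]
    simp only [coeff_C_mul_X_pow]
    rw [Finset.sum_ite_eq (Finset.range (n + 1)) m]
    simp only [Finset.mem_range]
  have hcn : c n = 1 := by
    apply Subtype.ext
    show (chi (E := E) (f : F)).coeff n = 1
    exact chi_monic (E := E) (f : F)
  have hPmonic : Pbar.Monic := by
    have hdeg : Pbar.natDegree ≤ n := by
      rw [natDegree_le_iff_coeff_eq_zero]
      intro m hm
      rw [hcoeff, if_neg (by omega)]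
    have hcn' : Pbar.coeff n = 1 := by
      rw [hcoeff, if_pos (by omega), hcn, map_one]
    exact monic_of_natDegree_le_of_coeff_eq_one n hdeg hcn'
  have hlifts : Pbar ∈ lifts ψ := by
    rw [lifts_iff_coeff_lifts]
    intro m
    rw [hcoeff]
    split_ifs with hm
    · obtain ⟨p, hp⟩ := chi_coeff_mem_range φ b (f : F) hb m
      have hmem : φ p ∈ below E O := by
        rw [← hp]; exact (c m).2
      obtain ⟨q, hq⟩ := hpoly p hmem
      refine ⟨q, ?_⟩
      rw [← hq]
      congr 1
      exact Subtype.ext hp.symm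
    · exact ⟨0, map_zero _⟩
  obtain ⟨P, hPmap, -, hPm⟩ := lifts_and_degree_eq_and_monic hlifts hPmonic
  refine ⟨P, hPm, ?_⟩
  rw [← eval₂_map, hPmap, hPbar, eval₂_finset_sum, ← hred]
  refine Finset.sum_congr rfl fun l _ => ?_
  rw [eval₂_mul, eval₂_C, eval₂_pow, eval₂_X]

end Fermat.Agent.S37.Diff.IntegralRed
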