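/-
PROJECT I (S37), slice I-1b-diff, step (D3) (helper7): the two ORDER COMPUTATIONS behind the
reduction of regular differentials, as abstract function-field lemmas (no Gauss datum inside).

`K` algebraically closed, `F/K(x)` a function field with separating element `x`
(`hx : IsFF K x`, `hsep`), `c ≠ 0` a second branch value, canonical divisor of `dx`

  `canDiv hx hsep = -2 (x)_∞ + Diff(F/K(x))`        (`r = -2` of `DualChart.exists_counts`).

For `w : F` put `W := w x (x - c)` and `Y := w (x - c)`.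

* (D3-L) `integral_of_mem_canDiv` (characteristic zero): if `e_P ≤ 3` over `0`, `e_P ≤ 2` over
  `c`, `e_P = 1` over the other finite values and `e_P ≤ N` at the poles, then for
  `w ∈ L(canDiv)`:
  `W, W^3/x, W^2/(x - c)` are integral over `K[x]` and `Y, Y^N x` are integral over `K[x⁻¹]`.
* (D3-k) `mem_canDiv_of_integral` (any characteristic): conversely these five integrality
  statements imply `w ∈ L(canDiv)` (only `d_Q ≥ e_Q - 1` is used: `DiffLower`).
-/
import Mathlib
import Fermat.Agent.S18.A.Chart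
import Fermat.Agent.S18.A.DiffLower
import Fermat.Agent.S18.A.DiffDivisor

set_option autoImplicit false

namespace Fermat.Agent.S37.Diff.OrdBounds

open AlgebraicCurve IntermediateField Polynomial
  Fermat.Agent.S24.FF Fermat.Agent.S24.Ord Fermat.Agent.S24.Fibre
  Fermat.Agent.S18.A Fermat.Agent.S18.A.Defs

universe u w

variable {K : Type w} {F : Type u} [Field K] [Field F] [Algebra K F]

/-! ### order calculus -/

section Ord

variable (v : Place K F)

theorem ord_pow (f : F) (n : ℕ) : v.ord (f ^ n) = n * v.ord f := by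
  rw [← zpow_natCast, Place.ord_zpow]

theorem ord_div {f g : F} (hf : f ≠ 0) (hg : g ≠ 0) : v.ord (f / g) = v.ord f - v.ord g := by
  rw [div_eq_mul_inv, Place.ord_mul v hf (inv_ne_zero hg), Place.ord_inv]
  ring

theorem ord_sub_algebraMap_eq_zero {x : F} {a b : K} (hab : a ≠ b)
    (ha : v.adicValuation (x - algebraMap K F a) < 1) :
    v.ord (x - algebraMap K F b) = 0 := by
  have h1 : x - algebraMap K F b = (x - algebraMap K F a) + algebraMap K F (a - b) := by
    rw [map_sub]; ring
  have h2 : v.adicValuation (algebraMap K F (a - b)) = 1 :=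
    adicValuation_algebraMap v (sub_ne_zero.mpr hab)
  have h3 : v.adicValuation (x - algebraMap K F b) = 1 := by
    rw [h1, add_comm]
    rw [Valuation.map_add_eq_of_lt_left _ (by rw [h2]; exact ha), h2]
  rw [ord_eq, h3, WithZero.log_one, neg_zero]

end Ord

variable [IsAlgClosed K] {x : F}

/-- the canonical divisor `div(dx) = -2 (x)_∞ + Diff` -/
noncomputable def canDiv (hx : IsFF K x) (hsep : Algebra.IsSeparable K⟮x⟯ F) : Divisor K F :=
  (-2 : ℤ) • FibreSep.poleDiv hx hsep + DiffDivisor.diffDivisor hx hsep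

/-- the shape of `DualChart.exists_counts` (`r = -2`) and of `CanonicalCount.ell_canonical` -/
theorem canDiv_eq (hx : IsFF K x) (hsep : Algebra.IsSeparable K⟮x⟯ F) :
    canDiv hx hsep =
      (-2 : ℤ) • FibreSep.poleDiv hx hsep + DiffDivisor.diffDivisor hx hsep := rfl

/-- the shape of `CanonicalCount.ell_canonical'` -/
theorem canDiv_eq' (hx : IsFF K x) (hsep : Algebra.IsSeparable K⟮x⟯ F) :
    canDiv hx hsep =
      DiffDivisor.diffDivisor hx hsep - (2 : ℤ) • FibreSep.poleDiv hx hsep := by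
  rw [canDiv_eq, neg_smul]
  abel

theorem canDiv_apply (hx : IsFF K x) (hsep : Algebra.IsSeparable K⟮x⟯ F) (v : Place K F) :
    canDiv hx hsep v = -2 * max (-v.ord x) 0 + (diffExp hx hsep v : ℤ) := by
  unfold canDiv
  rw [Finsupp.add_apply, Finsupp.smul_apply, FibreSep.poleDiv_apply,
    DiffDivisor.diffDivisor_apply, smul_eq_mul]

theorem mem_canDiv_iff (hx : IsFF K x) (hsep : Algebra.IsSeparable K⟮x⟯ F) (w : F) :
    w ∈ riemannRochSpace (canDiv hx hsep) ↔
      ∀ v : Place K F, w = 0 ∨
        2 * max (-v.ord x) 0 - (diffExp hx hsep v : ℤ) ≤ v.ord w := by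
  rw [mem_riemannRochSpace_iff]
  refine forall_congr' fun v => or_congr Iff.rfl ?_
  rw [canDiv_apply]
  constructor <;> intro h <;> linarith


/-! ### (D3-k): integrality implies membership in `L(canDiv)` (any characteristic) -/

section KSide

variable (hx : IsFF K x) (hsep : Algebra.IsSeparable K⟮x⟯ F) {c : K} (hc : c ≠ 0)

include hc in
/-- **(D3-k)** If `W = w x (x - c)`, `W^3/x`, `W^2/(x - c)` are integral over `K[x]` and
`Y = w (x - c)`, `Y^N x` are integral over `K[x⁻¹]`, then `w dx` is a regular differential: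
`w ∈ L(-2 (x)_∞ + Diff)`.  Only `d_Q ≥ e_Q - 1` is used. -/
theorem mem_canDiv_of_integral (N : ℕ) (w : F)
    (hW : w * x * (x - algebraMap K F c) ∈ intRing K x)
    (hW3 : (w * x * (x - algebraMap K F c)) ^ 3 / x ∈ intRing K x)
    (hW2 : (w * x * (x - algebraMap K F c)) ^ 2 / (x - algebraMap K F c) ∈ intRing K x)
    (hY : w * (x - algebraMap K F c) ∈ intRing K x⁻¹)
    (hYN : (w * (x - algebraMap K F c)) ^ N * x ∈ intRing K x⁻¹) :
    w ∈ riemannRochSpace (canDiv hx hsep) := by
  rw [mem_canDiv_iff]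
  intro v
  by_cases hw0 : w = 0
  · exact Or.inl hw0
  right
  have hx0 : x ≠ 0 := hx.ne_zero
  have hxc : x - algebraMap K F c ≠ 0 := sub_ne_zero.mpr (hx.ne_algebraMap c)
  have hW0 : w * x * (x - algebraMap K F c) ≠ 0 := mul_ne_zero (mul_ne_zero hw0 hx0) hxc
  have hY0 : w * (x - algebraMap K F c) ≠ 0 := mul_ne_zero hw0 hxc
  have hordW : v.ord (w * x * (x - algebraMap K F c)) =
      v.ord w + v.ord x + v.ord (x - algebraMap K F c) := by
    rw [Place.ord_mul v (mul_ne_zero hw0 hx0) hxc, Place.ord_mul v hw0 hx0]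
  have hordY : v.ord (w * (x - algebraMap K F c)) = v.ord w + v.ord (x - algebraMap K F c) :=
    Place.ord_mul v hw0 hxc
  by_cases hv : v.adicValuation x ≤ 1
  · -- finite place
    have hxnn : 0 ≤ v.ord x := (ord_nonneg_iff v hx0).mpr hv
    rw [max_eq_right (by omega)]
    have h1 : 0 ≤ v.ord (w * x * (x - algebraMap K F c)) :=
      (ord_nonneg_iff v hW0).mpr (Chart.adicValuation_le_one_of_mem_intRing hW v hv)
    have h3 : 0 ≤ v.ord ((w * x * (x - algebraMap K F c)) ^ 3 / x) :=
      (ord_nonneg_iff v (div_ne_zero (pow_ne_zero _ hW0) hx0)).mpr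
        (Chart.adicValuation_le_one_of_mem_intRing hW3 v hv)
    have h2 : 0 ≤ v.ord ((w * x * (x - algebraMap K F c)) ^ 2 / (x - algebraMap K F c)) :=
      (ord_nonneg_iff v (div_ne_zero (pow_ne_zero _ hW0) hxc)).mpr
        (Chart.adicValuation_le_one_of_mem_intRing hW2 v hv)
    rw [ord_div v (pow_ne_zero _ hW0) hx0, ord_pow] at h3
    rw [ord_div v (pow_ne_zero _ hW0) hxc, ord_pow] at h2
    rw [hordW] at h1 h2 h3
    obtain ⟨a, ha, -⟩ := exists_unique_center hx v hv
    by_cases ha0 : a = 0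
    · subst ha0
      have hd := DiffLower.sub_one_le_diffExp_zero hx hsep 0 ha
      have hxc0 : v.ord (x - algebraMap K F c) = 0 :=
        ord_sub_algebraMap_eq_zero v (Ne.symm hc) ha
      have hpos : 0 < v.ord (x - algebraMap K F 0) :=
        (ord_pos_iff v (sub_ne_zero.mpr (hx.ne_algebraMap 0))).mpr ha
      rw [map_zero, sub_zero] at hd hpos
      push_cast at h3
      omega
    by_cases hac : a = c
    · subst hac
      have hd := DiffLower.sub_one_le_diffExp_zero hx hsep a ha
      have hx00 : v.ord (x - algebraMap K F 0) = 0 := ord_sub_algebraMap_eq_zero v hc ha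
      have hpos : 0 < v.ord (x - algebraMap K F a) := (ord_pos_iff v hxc).mpr ha
      rw [map_zero, sub_zero] at hx00
      push_cast at h2
      omega
    · have hx00 : v.ord (x - algebraMap K F 0) = 0 := ord_sub_algebraMap_eq_zero v ha0 ha
      have hxc0 : v.ord (x - algebraMap K F c) = 0 := ord_sub_algebraMap_eq_zero v hac ha
      rw [map_zero, sub_zero] at hx00
      have hdnn : (0 : ℤ) ≤ (diffExp hx hsep v : ℤ) := Int.natCast_nonneg _
      omega
  · -- pole of `x`
    have hv' : 1 < v.adicValuation x := not_le.mp hv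
    have hneg : v.ord x < 0 := (ord_neg_iff v hx0).mpr hv'
    rw [max_eq_left (by omega)]
    have hinv : v.adicValuation x⁻¹ ≤ 1 := Defs.adicValuation_inv_le_one hv
    have hxc' : v.ord (x - algebraMap K F c) = v.ord x := FibreSep.ord_sub_of_ord_neg v c hneg
    have hd := DiffLower.sub_one_le_diffExp_pole hx hsep hv'
    have h1 : 0 ≤ v.ord (w * (x - algebraMap K F c)) :=
      (ord_nonneg_iff v hY0).mpr (Chart.adicValuation_le_one_of_mem_intRing hY v hinv)
    have h2 : 0 ≤ v.ord ((w * (x - algebraMap K F c)) ^ N * x) :=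
      (ord_nonneg_iff v (mul_ne_zero (pow_ne_zero _ hY0) hx0)).mpr
        (Chart.adicValuation_le_one_of_mem_intRing hYN v hinv)
    rw [Place.ord_mul v (pow_ne_zero _ hY0) hx0, ord_pow] at h2
    have h3 : 1 ≤ v.ord (w * (x - algebraMap K F c)) := by
      by_contra hlt
      have hle : v.ord (w * (x - algebraMap K F c)) ≤ 0 := by omega
      have : (N : ℤ) * v.ord (w * (x - algebraMap K F c)) ≤ 0 :=
        mul_nonpos_of_nonneg_of_nonpos (Int.natCast_nonneg _) hle
      omega
    rw [hordY, hxc'] at h3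
    omega

end KSide

/-! ### (D3-L): membership in `L(canDiv)` implies integrality (characteristic zero) -/

section LSide

variable [CharZero K] (hx : IsFF K x) (hsep : Algebra.IsSeparable K⟮x⟯ F) {c : K} (hc : c ≠ 0)
  (h0 : ∀ v : Place K F, v.adicValuation (x - algebraMap K F 0) < 1 →
    v.ord (x - algebraMap K F 0) ≤ 3)
  (hc2 : ∀ v : Place K F, v.adicValuation (x - algebraMap K F c) < 1 →
    v.ord (x - algebraMap K F c) ≤ 2)
  (hun : ∀ a : K, a ≠ 0 → a ≠ c → ∀ v : Place K F,
    v.adicValuation (x - algebraMap K F a) < 1 → v.ord (x - algebraMap K F a) = 1)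

include hc h0 hc2 hun in
/-- local data at a place where `x` is regular -/
theorem finite_data {w : F} (hw0 : w ≠ 0) (hw : w ∈ riemannRochSpace (canDiv hx hsep))
    (v : Place K F) (hv : v.adicValuation x ≤ 1) :
    0 ≤ v.ord x ∧ 0 ≤ v.ord (x - algebraMap K F c) ∧ v.ord x ≤ 3 ∧
      v.ord (x - algebraMap K F c) ≤ 2 ∧ (v.ord x = 0 ∨ v.ord (x - algebraMap K F c) = 0) ∧
      min 1 (v.ord x + v.ord (x - algebraMap K F c)) ≤
        v.ord w + v.ord x + v.ord (x - algebraMap K F c) := by
  have hx0 : x ≠ 0 := hx.ne_zero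
  have hxc : x - algebraMap K F c ≠ 0 := sub_ne_zero.mpr (hx.ne_algebraMap c)
  have hxnn : 0 ≤ v.ord x := (ord_nonneg_iff v hx0).mpr hv
  have hwv := ((mem_canDiv_iff hx hsep w).mp hw v).resolve_left hw0
  rw [max_eq_right (by omega)] at hwv
  obtain ⟨a, ha, -⟩ := exists_unique_center hx v hv
  have hd := DiffLower.diffExp_eq_of_charZero_zero hx hsep a ha
  by_cases ha0 : a = 0
  · subst ha0
    have hxc0 : v.ord (x - algebraMap K F c) = 0 := ord_sub_algebraMap_eq_zero v (Ne.symm hc) ha
    have hpos : 0 < v.ord (x - algebraMap K F 0) :=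
      (ord_pos_iff v (sub_ne_zero.mpr (hx.ne_algebraMap 0))).mpr ha
    have hle := h0 v ha
    rw [map_zero, sub_zero] at hd hpos hle
    refine ⟨hxnn, by omega, hle, by omega, Or.inr hxc0, ?_⟩
    rw [hxc0, min_eq_left (by omega)]
    omega
  by_cases hac : a = c
  · subst hac
    have hx00 : v.ord (x - algebraMap K F 0) = 0 := ord_sub_algebraMap_eq_zero v hc ha
    have hpos : 0 < v.ord (x - algebraMap K F a) := (ord_pos_iff v hxc).mpr ha
    have hle := hc2 v ha
    rw [map_zero, sub_zero] at hx00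
    refine ⟨hxnn, by omega, by omega, hle, Or.inl hx00, ?_⟩
    rw [hx00, min_eq_left (by omega)]
    omega
  · have hx00 : v.ord (x - algebraMap K F 0) = 0 := ord_sub_algebraMap_eq_zero v ha0 ha
    have hxc0 : v.ord (x - algebraMap K F c) = 0 := ord_sub_algebraMap_eq_zero v hac ha
    have h1 := hun a ha0 hac v ha
    rw [map_zero, sub_zero] at hx00
    refine ⟨hxnn, by omega, by omega, by omega, Or.inl hx00, ?_⟩
    rw [hx00, hxc0, min_eq_right (by omega)]
    omega

/-- local data at a pole of `x` -/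
theorem pole_data {w : F} (hw0 : w ≠ 0) (hw : w ∈ riemannRochSpace (canDiv hx hsep))
    (v : Place K F) (hv : 1 < v.adicValuation x) :
    v.ord x < 0 ∧ v.ord (x - algebraMap K F c) = v.ord x ∧ 1 - v.ord x ≤ v.ord w := by
  have hx0 : x ≠ 0 := hx.ne_zero
  have hneg : v.ord x < 0 := (ord_neg_iff v hx0).mpr hv
  have hwv := ((mem_canDiv_iff hx hsep w).mp hw v).resolve_left hw0
  rw [max_eq_left (by omega)] at hwv
  have hd := DiffLower.diffExp_eq_of_charZero_pole hx hsep hv
  refine ⟨hneg, FibreSep.ord_sub_of_ord_neg v c hneg, ?_⟩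
  omega

include hc h0 hc2 hun in
/-- **(D3-L)** In characteristic zero, with `e ≤ 3` over `0`, `e ≤ 2` over `c`, `e = 1` over the
other finite values and `e ≤ N` at the poles: for a regular differential `w dx`
(`w ∈ L(-2 (x)_∞ + Diff)`), `W = w x (x - c)`, `W^3/x`, `W^2/(x - c)` are integral over `K[x]`
and `Y = w (x - c)`, `Y^N x` are integral over `K[x⁻¹]`. -/
theorem integral_of_mem_canDiv {N : ℕ} (hN : 0 < N)
    (hinf : ∀ v : Place K F, 1 < v.adicValuation x → -v.ord x ≤ N)
    (w : F) (hw : w ∈ riemannRochSpace (canDiv hx hsep)) :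
    w * x * (x - algebraMap K F c) ∈ intRing K x ∧
    (w * x * (x - algebraMap K F c)) ^ 3 / x ∈ intRing K x ∧
    (w * x * (x - algebraMap K F c)) ^ 2 / (x - algebraMap K F c) ∈ intRing K x ∧
    w * (x - algebraMap K F c) ∈ intRing K x⁻¹ ∧
    (w * (x - algebraMap K F c)) ^ N * x ∈ intRing K x⁻¹ := by
  by_cases hw0 : w = 0
  · subst hw0
    have hz : ∀ y : F, (0 : F) ∈ intRing K y := fun y => (intRing K y).zero_mem
    simp only [zero_mul, ne_eq, OfNat.ofNat_ne_zero, not_false_eq_true, zero_pow, zero_div,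
      zero_pow (Nat.pos_iff_ne_zero.mp hN)]
    exact ⟨hz x, hz x, hz x, hz x⁻¹, hz x⁻¹⟩
  have hx0 : x ≠ 0 := hx.ne_zero
  have hxc : x - algebraMap K F c ≠ 0 := sub_ne_zero.mpr (hx.ne_algebraMap c)
  have hW0 : w * x * (x - algebraMap K F c) ≠ 0 := mul_ne_zero (mul_ne_zero hw0 hx0) hxc
  have hY0 : w * (x - algebraMap K F c) ≠ 0 := mul_ne_zero hw0 hxc
  have hordW : ∀ v : Place K F, v.ord (w * x * (x - algebraMap K F c)) =
      v.ord w + v.ord x + v.ord (x - algebraMap K F c) := fun v => by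
    rw [Place.ord_mul v (mul_ne_zero hw0 hx0) hxc, Place.ord_mul v hw0 hx0]
  have hordY : ∀ v : Place K F,
      v.ord (w * (x - algebraMap K F c)) = v.ord w + v.ord (x - algebraMap K F c) :=
    fun v => Place.ord_mul v hw0 hxc
  have hsepi := FibreSep.isSeparable_inv hsep
  refine ⟨?_, ?_, ?_, ?_, ?_⟩
  · rw [Chart.mem_intRing_iff hx hsep]
    intro v hv
    obtain ⟨h1, h2, h3, h4, h5, h6⟩ := finite_data hx hsep hc h0 hc2 hun hw0 hw v hv
    rw [← ord_nonneg_iff v hW0, hordW]
    omega
  · rw [Chart.mem_intRing_iff hx hsep]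
    intro v hv
    obtain ⟨h1, h2, h3, h4, h5, h6⟩ := finite_data hx hsep hc h0 hc2 hun hw0 hw v hv
    rw [← ord_nonneg_iff v (div_ne_zero (pow_ne_zero _ hW0) hx0),
      ord_div v (pow_ne_zero _ hW0) hx0, ord_pow, hordW]
    push_cast
    omega
  · rw [Chart.mem_intRing_iff hx hsep]
    intro v hv
    obtain ⟨h1, h2, h3, h4, h5, h6⟩ := finite_data hx hsep hc h0 hc2 hun hw0 hw v hv
    rw [← ord_nonneg_iff v (div_ne_zero (pow_ne_zero _ hW0) hxc),
      ord_div v (pow_ne_zero _ hW0) hxc, ord_pow, hordW]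
    push_cast
    omega
  · rw [Chart.mem_intRing_iff hx.inv hsepi]
    intro v hv
    rw [← ord_nonneg_iff v hY0, hordY]
    by_cases hv' : v.adicValuation x ≤ 1
    · obtain ⟨h1, h2, h3, h4, h5, h6⟩ := finite_data hx hsep hc h0 hc2 hun hw0 hw v hv'
      have hxle : v.ord x ≤ 0 := by
        have := (ord_nonneg_iff v (inv_ne_zero hx0)).mpr hv
        rw [Place.ord_inv] at this
        omega
      omega
    · obtain ⟨h1, h2, h3⟩ := pole_data (c := c) hx hsep hw0 hw v (not_le.mp hv')
      omega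
  · rw [Chart.mem_intRing_iff hx.inv hsepi]
    intro v hv
    rw [← ord_nonneg_iff v (mul_ne_zero (pow_ne_zero _ hY0) hx0),
      Place.ord_mul v (pow_ne_zero _ hY0) hx0, ord_pow, hordY]
    by_cases hv' : v.adicValuation x ≤ 1
    · obtain ⟨h1, h2, h3, h4, h5, h6⟩ := finite_data hx hsep hc h0 hc2 hun hw0 hw v hv'
      have hxle : v.ord x ≤ 0 := by
        have := (ord_nonneg_iff v (inv_ne_zero hx0)).mpr hv
        rw [Place.ord_inv] at this
        omega
      have hY : 0 ≤ v.ord w + v.ord (x - algebraMap K F c) := by omega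
      have := mul_nonneg (Int.natCast_nonneg N) hY
      omega
    · obtain ⟨h1, h2, h3⟩ := pole_data (c := c) hx hsep hw0 hw v (not_le.mp hv')
      have hle := hinf v (not_le.mp hv')
      have hY : 1 ≤ v.ord w + v.ord (x - algebraMap K F c) := by omega
      have : (N : ℤ) * 1 ≤ (N : ℤ) * (v.ord w + v.ord (x - algebraMap K F c)) :=
        mul_le_mul_of_nonneg_left hY (Int.natCast_nonneg N)
      omega

end LSide

end Fermat.Agent.S37.Diff.OrdBounds
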