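/-
PROJECT I (S37), slice I-1b-diff, ASSEMBLY (helper23): REDUCTION OF REGULAR DIFFERENTIALS,
hence `gL ≤ gk`, abstract form.

Setting of `Wild/GaussA`: `R : GaussDatum A π FL Fk`, `FL`, `Fk` algebras over `RatFunc L`,
`RatFunc k`, the image `x` of `X` in `FL` Gauss-integral with reduction the image `xk` of `X` in
`Fk`, an orthonormal basis `h : UnramVal.Hyp (RatFunc L) R.O R.red (redVj R hx hrx) t`.

* `red_mem_intRing_fin` / `red_mem_intRing_inf` : reduction maps `O ∩ (integral closure of L[x])`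
  into the integral closure of `k[xk]`, and the same for `x⁻¹` ((D2) = `IntegralRed` in the two
  charts `Chart.exists_basis_fin`, `Chart.exists_basis_inf`);
* `red_mem_canDiv` : if `w ∈ O` and `w dx` is a regular differential, then `(red w) dxk` is a
  regular differential ((D3) = `OrdBounds`, the char-0 half being a hypothesis `hL`, which is
  `RamX0.integral_of_mem_canDiv_X0` for `X₀(N)`);
* `genus_le` : `gL ≤ gk` ((D1) = `CanonicalCount`, (D4) = `OrthoW`).
-/
import Mathlib
import Fermat.Agent.S37.Diff.OrthoW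
import Fermat.Agent.S37.Diff.IntegralRed
import Fermat.Agent.S37.Diff.OrdBounds
import Fermat.Agent.S37.Diff.CanonicalCount
import Fermat.Agent.S37.Wild.GaussA

set_option autoImplicit false
set_option linter.unusedSectionVars false

noncomputable section

namespace Fermat.Agent.S37.Diff.Assembly

open AlgebraicCurve IntermediateField Polynomial
  Fermat.Agent.S24.FF Fermat.Agent.S24.Fibre
  Fermat.Agent.S18.A Fermat.Agent.S18.A.Chart
  Fermat.Agent.S18.C.UnramVal
  Fermat.Agent.S37.Deuring.Core Fermat.Agent.S37.Wild.GaussA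
  Fermat.Agent.S37.Diff.OrdBounds

/-! ### generalities -/

section Generic

variable {K : Type*} [Field K] {F : Type*} [Field F] [Algebra K F]

/-- a root of a monic polynomial with coefficients in the image of `θ : K[X] → F`, `X ↦ y`, is
integral over `K[y]` -/
theorem mem_intRing_of_eval₂ (y z : F) (θ : K[X] →+* F)
    (hθC : ∀ a, θ (C a) = algebraMap K F a) (hθX : θ X = y)
    (P : K[X][X]) (hPm : P.Monic) (hP : eval₂ θ z P = 0) : z ∈ intRing K y := by
  set y' : polyRing K y := ⟨y, Algebra.self_mem_adjoin_singleton K y⟩ with hy'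
  set g : K[X] →+* polyRing K y := (aeval y').toRingHom with hg
  have hgθ : (algebraMap (polyRing K y) F).comp g = θ := by
    refine Polynomial.ringHom_ext (fun a => ?_) ?_
    · rw [hθC, RingHom.comp_apply, hg]
      simp only [AlgHom.toRingHom_eq_coe, RingHom.coe_coe, aeval_C]
      rfl
    · rw [hθX, RingHom.comp_apply, hg]
      simp only [AlgHom.toRingHom_eq_coe, RingHom.coe_coe, aeval_X]
      rfl
  refine ⟨P.map g, hPm.map g, ?_⟩
  rw [eval₂_map, hgθ]
  exact hP

variable {x : F}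

/-- `Chart.exists_basis_fin` for an arbitrary `RatFunc K`-structure inducing `X ↦ x` -/
theorem exists_basis_fin' [inst : Algebra (RatFunc K) F] (hx : IsFF K x)
    (hsep : Algebra.IsSeparable K⟮x⟯ F)
    (halg : ∀ a, algebraMap (RatFunc K) F a = evalRat hx.transcendental a) :
    ∃ b : Module.Basis (Fin (Module.finrank K⟮x⟯ F)) (RatFunc K) F,
      (∀ i, b i ∈ intRing K x) ∧
      ∀ g ∈ intRing K x, ∀ i, ∃ p : K[X], b.repr g i = algebraMap K[X] (RatFunc K) p := by
  have hinst : inst = ratAlgebra hx.transcendental := Algebra.algebra_ext _ _ halg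
  subst hinst
  exact Chart.exists_basis_fin hx hsep

/-- `Chart.exists_basis_inf` for an arbitrary `RatFunc K`-structure inducing `X ↦ x` -/
theorem exists_basis_inf' [inst : Algebra (RatFunc K) F] (hx : IsFF K x)
    (hsep : Algebra.IsSeparable K⟮x⟯ F)
    (halg : ∀ a, algebraMap (RatFunc K) F a = evalRat hx.transcendental a) :
    ∃ c : Module.Basis (Fin (Module.finrank K⟮x⟯ F)) (RatFunc K) F,
      (∀ i, c i ∈ intRing K x⁻¹) ∧
      ∀ g ∈ intRing K x⁻¹, ∀ i, ∃ q : K[X],
        c.repr g i = aeval (RatFunc.X⁻¹ : RatFunc K) q := by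
  have hinst : inst = ratAlgebra hx.transcendental := Algebra.algebra_ext _ _ halg
  subst hinst
  exact Chart.exists_basis_inf hx hsep

end Generic

/-! ### the setting -/

section Main

variable {L : Type*} [Field L] {FL : Type*} [Field FL] [Algebra L FL]
variable {k : Type*} [Field k] {Fk : Type*} [Field Fk] [Algebra k Fk]
variable [Algebra (RatFunc L) FL] [IsScalarTower L (RatFunc L) FL]
  [FiniteDimensional (RatFunc L) FL]
variable [Algebra (RatFunc k) Fk] [IsScalarTower k (RatFunc k) Fk]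
variable {A : ValuationSubring L} {π : A →+* k} (R : GaussDatum A π FL Fk)
variable (hx : algebraMap (RatFunc L) FL RatFunc.X ∈ R.O)
variable (hrx : R.red ⟨_, hx⟩ = algebraMap (RatFunc k) Fk RatFunc.X)
variable {ι : Type*} [Fintype ι] {t : ι → R.O}
variable (h : Hyp (RatFunc L) R.O R.red (redVj R hx hrx) t)

include h in
/-- **(D2), finite chart**: reduction maps Gauss-integral elements which are integral over `L[x]`
to elements integral over `k[xk]`. -/
theorem red_mem_intRing_fin {x : FL} (hxFF : IsFF L x) (hsepL : Algebra.IsSeparable L⟮x⟯ FL)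
    (halgL : ∀ a, algebraMap (RatFunc L) FL a = evalRat hxFF.transcendental a)
    (hpf : ∀ (p : L[X]) (hp : algebraMap L[X] (RatFunc L) p ∈ Vj R),
      ∃ q : k[X], redVj R hx hrx ⟨_, hp⟩ = algebraMap k[X] (RatFunc k) q)
    (f : R.O) (hf : (f : FL) ∈ intRing L x) :
    R.red f ∈ intRing k (algebraMap (RatFunc k) Fk RatFunc.X) := by
  classical
  obtain ⟨b, hb1, hb2⟩ := exists_basis_fin' hxFF hsepL halgL
  obtain ⟨P, hPm, hP⟩ := IntegralRed.exists_monic_red h (algebraMap L[X] (RatFunc L))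
    (algebraMap k[X] (RatFunc k)) hpf b f (fun i j => hb2 _ (mul_mem hf (hb1 j)) i)
  refine mem_intRing_of_eval₂ _ _ _ (fun a => ?_) ?_ P hPm hP
  · rw [RingHom.comp_apply, RatFunc.algebraMap_C, ← RatFunc.algebraMap_eq_C,
      ← IsScalarTower.algebraMap_apply]
  · rw [RingHom.comp_apply, RatFunc.algebraMap_X]

include h in
/-- **(D2), chart at infinity**: the same for `x⁻¹`. -/
theorem red_mem_intRing_inf {x : FL} (hxFF : IsFF L x) (hsepL : Algebra.IsSeparable L⟮x⟯ FL)
    (halgL : ∀ a, algebraMap (RatFunc L) FL a = evalRat hxFF.transcendental a)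
    (hpi : ∀ (p : L[X]) (hp : aeval (RatFunc.X⁻¹ : RatFunc L) p ∈ Vj R),
      ∃ q : k[X], redVj R hx hrx ⟨_, hp⟩ = aeval (RatFunc.X⁻¹ : RatFunc k) q)
    (f : R.O) (hf : (f : FL) ∈ intRing L x⁻¹) :
    R.red f ∈ intRing k (algebraMap (RatFunc k) Fk RatFunc.X)⁻¹ := by
  classical
  obtain ⟨b, hb1, hb2⟩ := exists_basis_inf' hxFF hsepL halgL
  obtain ⟨P, hPm, hP⟩ := IntegralRed.exists_monic_red (S := L[X]) (T := k[X]) h
    ((aeval (R := L) (RatFunc.X⁻¹ : RatFunc L)).toRingHom : L[X] →+* RatFunc L)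
    ((aeval (R := k) (RatFunc.X⁻¹ : RatFunc k)).toRingHom : k[X] →+* RatFunc k)
    (fun s hs => hpi s hs) b f (fun i j => hb2 _ (mul_mem hf (hb1 j)) i)
  refine mem_intRing_of_eval₂ _ _ _ (fun a => ?_) ?_ P hPm hP
  · rw [RingHom.comp_apply]
    simp only [AlgHom.toRingHom_eq_coe, RingHom.coe_coe, aeval_C]
    rw [← IsScalarTower.algebraMap_apply]
  · rw [RingHom.comp_apply]
    simp only [AlgHom.toRingHom_eq_coe, RingHom.coe_coe, aeval_X]
    rw [map_inv₀]

include h in
/-- **Reduction of regular differentials.**  Let `w ∈ O` be such that the five elements of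
`OrdBounds.integral_of_mem_canDiv` are integral (this holds when `w dx` is a regular
differential, under the ramification hypotheses of `OrdBounds`).  Then `(red w) dxk` is a
regular differential. -/
theorem red_mem_canDiv [IsAlgClosed k]
    {x : FL} (hxFF : IsFF L x) (hsepL : Algebra.IsSeparable L⟮x⟯ FL)
    (halgL : ∀ a, algebraMap (RatFunc L) FL a = evalRat hxFF.transcendental a)
    {xk : Fk} (hxkFF : IsFF k xk) (hsepk : Algebra.IsSeparable k⟮xk⟯ Fk)
    (hxkX : algebraMap (RatFunc k) Fk RatFunc.X = xk)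
    (hpf : ∀ (p : L[X]) (hp : algebraMap L[X] (RatFunc L) p ∈ Vj R),
      ∃ q : k[X], redVj R hx hrx ⟨_, hp⟩ = algebraMap k[X] (RatFunc k) q)
    (hpi : ∀ (p : L[X]) (hp : aeval (RatFunc.X⁻¹ : RatFunc L) p ∈ Vj R),
      ∃ q : k[X], redVj R hx hrx ⟨_, hp⟩ = aeval (RatFunc.X⁻¹ : RatFunc k) q)
    (c : A) (hc : π c ≠ 0) (N : ℕ) (w : R.O)
    (hW : (w : FL) * x * (x - algebraMap L FL (c : L)) ∈ intRing L x)
    (hW3 : ((w : FL) * x * (x - algebraMap L FL (c : L))) ^ 3 / x ∈ intRing L x)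
    (hW2 : ((w : FL) * x * (x - algebraMap L FL (c : L))) ^ 2 /
      (x - algebraMap L FL (c : L)) ∈ intRing L x)
    (hY : (w : FL) * (x - algebraMap L FL (c : L)) ∈ intRing L x⁻¹)
    (hYN : ((w : FL) * (x - algebraMap L FL (c : L))) ^ N * x ∈ intRing L x⁻¹) :
    R.red w ∈ riemannRochSpace (canDiv hxkFF hsepk) := by
  have hxX : algebraMap (RatFunc L) FL RatFunc.X = x := by rw [halgL, evalRat_X]
  subst hxkX
  -- the elements `x`, `x - c` of `O` and their inverses
  set xO : R.O := ⟨_, hx⟩ with hxO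
  have hxOc : (xO : FL) = x := hxX
  have hxOr : R.red xO = algebraMap (RatFunc k) Fk RatFunc.X := hrx
  set dO : R.O := xO - R.const c with hdO
  have hdOc : (dO : FL) = x - algebraMap L FL (c : L) := by
    rw [← hxOc]
    rfl
  have hdOr : R.red dO = algebraMap (RatFunc k) Fk RatFunc.X - algebraMap k Fk (π c) := by
    rw [hdO, map_sub, hxOr, GaussDatum.red_const]
  have hxu : IsUnit xO := by
    by_contra hnu
    have h0 := (R.red_eq_zero_iff xO).mpr hnu
    rw [hxOr] at h0
    exact hxkFF.ne_zero h0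
  have hdu : IsUnit dO := by
    by_contra hnu
    have h0 := (R.red_eq_zero_iff dO).mpr hnu
    rw [hdOr, sub_eq_zero] at h0
    exact hxkFF.ne_algebraMap _ h0
  set xi : R.O := ((hxu.unit⁻¹ : R.Oˣ) : R.O) with hxi
  set di : R.O := ((hdu.unit⁻¹ : R.Oˣ) : R.O) with hdi
  have hxi1 : xO * xi = 1 := hxu.mul_val_inv
  have hdi1 : dO * di = 1 := hdu.mul_val_inv
  have hxic : (xi : FL) = x⁻¹ := by
    have h1 : (xO : FL) * (xi : FL) = 1 := congrArg Subtype.val hxi1
    rw [hxOc] at h1
    exact eq_inv_of_mul_eq_one_right h1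
  have hdic : (di : FL) = (x - algebraMap L FL (c : L))⁻¹ := by
    have h1 : (dO : FL) * (di : FL) = 1 := congrArg Subtype.val hdi1
    rw [hdOc] at h1
    exact eq_inv_of_mul_eq_one_right h1
  have hxir : R.red xi = (algebraMap (RatFunc k) Fk RatFunc.X)⁻¹ := by
    have h1 : R.red xO * R.red xi = 1 := by rw [← map_mul, hxi1, map_one]
    rw [hxOr] at h1
    exact eq_inv_of_mul_eq_one_right h1
  have hdir : R.red di =
      (algebraMap (RatFunc k) Fk RatFunc.X - algebraMap k Fk (π c))⁻¹ := by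
    have h1 : R.red dO * R.red di = 1 := by rw [← map_mul, hdi1, map_one]
    rw [hdOr] at h1
    exact eq_inv_of_mul_eq_one_right h1
  -- the five elements
  have e1 : (((w * xO * dO : R.O) : R.O) : FL) ∈ intRing L x := by
    have : (((w * xO * dO : R.O) : R.O) : FL) = (w : FL) * x * (x - algebraMap L FL (c : L)) := by
      rw [← hdOc, ← hxOc]; rfl
    rw [this]; exact hW
  have e2 : ((((w * xO * dO) ^ 3 * xi : R.O) : R.O) : FL) ∈ intRing L x := by
    have : ((((w * xO * dO) ^ 3 * xi : R.O) : R.O) : FL) =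
        ((w : FL) * x * (x - algebraMap L FL (c : L))) ^ 3 / x := by
      rw [div_eq_mul_inv, ← hxic, ← hdOc, ← hxOc]; rfl
    rw [this]; exact hW3
  have e3 : ((((w * xO * dO) ^ 2 * di : R.O) : R.O) : FL) ∈ intRing L x := by
    have : ((((w * xO * dO) ^ 2 * di : R.O) : R.O) : FL) =
        ((w : FL) * x * (x - algebraMap L FL (c : L))) ^ 2 / (x - algebraMap L FL (c : L)) := by
      rw [div_eq_mul_inv, ← hdic, ← hdOc, ← hxOc]; rfl
    rw [this]; exact hW2
  have e4 : (((w * dO : R.O) : R.O) : FL) ∈ intRing L x⁻¹ := by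
    have : (((w * dO : R.O) : R.O) : FL) = (w : FL) * (x - algebraMap L FL (c : L)) := by
      rw [← hdOc]; rfl
    rw [this]; exact hY
  have e5 : ((((w * dO) ^ N * xO : R.O) : R.O) : FL) ∈ intRing L x⁻¹ := by
    have : ((((w * dO) ^ N * xO : R.O) : R.O) : FL) =
        ((w : FL) * (x - algebraMap L FL (c : L))) ^ N * x := by
      rw [← hdOc, ← hxOc]; rfl
    rw [this]; exact hYN
  have r1 := red_mem_intRing_fin R hx hrx h hxFF hsepL halgL hpf _ e1
  have r2 := red_mem_intRing_fin R hx hrx h hxFF hsepL halgL hpf _ e2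
  have r3 := red_mem_intRing_fin R hx hrx h hxFF hsepL halgL hpf _ e3
  have r4 := red_mem_intRing_inf R hx hrx h hxFF hsepL halgL hpi _ e4
  have r5 := red_mem_intRing_inf R hx hrx h hxFF hsepL halgL hpi _ e5
  simp only [map_mul, map_pow, hxOr, hdOr, hxir, hdir, ← div_eq_mul_inv] at r1 r2 r3 r4 r5
  exact mem_canDiv_of_integral hxkFF hsepk hc N (R.red w) r1 r2 r3 r4 r5

/-- **`gL ≤ gk` by reduction of regular differentials** (abstract form).  `hL` is the
characteristic-zero half of (D3) (`OrdBounds.integral_of_mem_canDiv`, or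
`RamX0.integral_of_mem_canDiv_X0` for `X₀(N)`); `hpf`, `hpi` are `IntegralGauss.hpoly_fin`,
`IntegralGauss.hpoly_inf`. -/
theorem genus_le [IsAlgClosed L] [IsAlgClosed k]
    {x : FL} (hxFF : IsFF L x) (hsepL : Algebra.IsSeparable L⟮x⟯ FL)
    (halgL : ∀ a, algebraMap (RatFunc L) FL a = evalRat hxFF.transcendental a)
    {xk : Fk} (hxkFF : IsFF k xk) (hsepk : Algebra.IsSeparable k⟮xk⟯ Fk)
    (hxkX : algebraMap (RatFunc k) Fk RatFunc.X = xk)
    (hsurj : Function.Surjective R.red)
    (hdim : Module.finrank (RatFunc L) FL ≤ Module.finrank (RatFunc k) Fk)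
    (hpf : ∀ (p : L[X]) (hp : algebraMap L[X] (RatFunc L) p ∈ Vj R),
      ∃ q : k[X], redVj R hx hrx ⟨_, hp⟩ = algebraMap k[X] (RatFunc k) q)
    (hpi : ∀ (p : L[X]) (hp : aeval (RatFunc.X⁻¹ : RatFunc L) p ∈ Vj R),
      ∃ q : k[X], redVj R hx hrx ⟨_, hp⟩ = aeval (RatFunc.X⁻¹ : RatFunc k) q)
    (c : A) (hc : π c ≠ 0) (N : ℕ)
    (hL : ∀ w ∈ riemannRochSpace (canDiv hxFF hsepL),
      w * x * (x - algebraMap L FL (c : L)) ∈ intRing L x ∧
      (w * x * (x - algebraMap L FL (c : L))) ^ 3 / x ∈ intRing L x ∧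
      (w * x * (x - algebraMap L FL (c : L))) ^ 2 / (x - algebraMap L FL (c : L)) ∈ intRing L x ∧
      w * (x - algebraMap L FL (c : L)) ∈ intRing L x⁻¹ ∧
      (w * (x - algebraMap L FL (c : L))) ^ N * x ∈ intRing L x⁻¹)
    {gL gk : ℕ} (HL : Fermat.Agent.S18.NonSpecial.RiemannHyp L FL gL)
    (Hk : Fermat.Agent.S18.NonSpecial.RiemannHyp k Fk gk) : gL ≤ gk := by
  classical
  obtain ⟨t, h⟩ := Fermat.Agent.S37.Wild.GaussA.exists_hyp R hx hrx hsurj hdim
  haveI := HL.finite (canDiv hxFF hsepL)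
  obtain ⟨g, hgW, hgli⟩ := OrthoW.exists_red_independent_of_hyp R hx hrx h
    (riemannRochSpace (canDiv hxFF hsepL))
  have hmem : ∀ j, R.red (g j) ∈ riemannRochSpace (canDiv hxkFF hsepk) := fun j => by
    obtain ⟨h1, h2, h3, h4, h5⟩ := hL _ (hgW j)
    exact red_mem_canDiv R hx hrx h hxFF hsepL halgL hxkFF hsepk hxkX hpf hpi c hc N (g j)
      h1 h2 h3 h4 h5
  haveI := Hk.finite (canDiv hxkFF hsepk)
  have hg' : LinearIndependent k
      (fun j => (⟨R.red (g j), hmem j⟩ : riemannRochSpace (canDiv hxkFF hsepk))) :=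
    LinearIndependent.of_comp (Submodule.subtype _) hgli
  have hle := hg'.fintype_card_le_finrank
  rw [Fintype.card_fin] at hle
  have hgL : Module.finrank L (riemannRochSpace (canDiv hxFF hsepL)) = gL :=
    CanonicalCount.ell_canonical hxFF hsepL HL
  have hgk : Module.finrank k (riemannRochSpace (canDiv hxkFF hsepk)) = gk :=
    CanonicalCount.ell_canonical hxkFF hsepk Hk
  omega

end Main

end Fermat.Agent.S37.Diff.Assembly
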