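/-
PROJECT I (S37), slice I-1b-diff, glue (G) (helper7): POLYNOMIALS IN THE GAUSS VALUATION RING OF
THE `j`-LINE HAVE INTEGRAL COEFFICIENTS, and reduce coefficientwise - in both charts.

Setting of `S37/Wild/GaussA.lean` (variable block verbatim): `R : GaussDatum A π FL Fk`,
`j = algebraMap (RatFunc L) FL X ∈ R.O` reducing to `algebraMap (RatFunc k) Fk X`,
`Vj R = R.O ∩ RatFunc L` the Gauss valuation ring of the `j`-line, `redVj : Vj R →+* RatFunc k`.

* `pi_eq_zero_of_not_isUnit` : non-units of `A` are killed by `π`;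
* `coeff_mem_of_mem_Vj`     : `p ∈ L[X]` with `p(j) ∈ Vj` has coefficients in `A`;
* `coeff_mem_of_aeval_inv_mem_Vj` : the same for `p(1/j)`;
* **`hpoly_fin`** : `redVj (p(j)) = q(j̄)` for some `q ∈ k[X]`;
* **`hpoly_inf`** : `redVj (p(1/j)) = q(1/j̄)` for some `q ∈ k[X]`

(the hypothesis `hpoly` of `Diff/IntegralRed.exists_monic_red` for the finite chart
`φ = algebraMap L[X] (RatFunc L)` and for the chart at infinity `φ = aeval X⁻¹`).
-/
import Mathlib
import Fermat.Agent.S37.Wild.GaussA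

set_option autoImplicit false
set_option linter.unusedSectionVars false

noncomputable section

namespace Fermat.Agent.S37.Diff.IntegralGauss

open Polynomial AlgebraicCurve Fermat.Agent.S37.Deuring.Core Fermat.Agent.S18.C.UnramVal
  Fermat.Agent.S37.Wild.GaussA

/-! ### a Mathlib-only lemma on reflected polynomials -/

theorem eval₂_reflect_eq {R₀ S₀ : Type*} [CommSemiring R₀] [Field S₀] (i : R₀ →+* S₀) {x : S₀}
    (hx : x ≠ 0) (N : ℕ) (f : R₀[X]) (hf : f.natDegree ≤ N) :
    eval₂ i x (reflect N f) = eval₂ i x⁻¹ f * x ^ N := by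
  let _ : Invertible x⁻¹ := invertibleOfNonzero (inv_ne_zero hx)
  have h := eval₂_reflect_mul_pow i x⁻¹ N f hf
  rw [invOf_eq_inv, inv_inv] at h
  rw [← h, mul_assoc, ← mul_pow, inv_mul_cancel₀ hx, one_pow, mul_one]

variable {L : Type*} [Field L] {FL : Type*} [Field FL] [Algebra L FL]
variable {k : Type*} [Field k] {Fk : Type*} [Field Fk] [Algebra k Fk]
variable [Algebra (RatFunc L) FL] [IsScalarTower L (RatFunc L) FL]
variable [Algebra (RatFunc k) Fk] [IsScalarTower k (RatFunc k) Fk]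
variable {A : ValuationSubring L} {π : A →+* k}
variable (R : GaussDatum A π FL Fk)

include R in
/-- the kernel of `π` contains the non-units of `A` -/
theorem pi_eq_zero_of_not_isUnit (a : A) (ha : ¬ IsUnit a) : π a = 0 := by
  by_contra hne
  apply ha
  have hred : R.red (constO R a) ≠ 0 := by
    rw [red_constO]
    exact (map_ne_zero_iff _ (algebraMap k Fk).injective).mpr hne
  have hu : IsUnit (constO R a) := by
    by_contra hnu
    exact hred ((R.red_eq_zero_iff _).mpr hnu)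
  obtain ⟨w, hw⟩ := hu.exists_right_inv
  have hw' : algebraMap L FL (a : L) * (w : FL) = 1 := congrArg Subtype.val hw
  have ha0 : (a : L) ≠ 0 := by
    intro h0
    rw [h0, map_zero, zero_mul] at hw'
    exact zero_ne_one hw'
  have hinv : algebraMap L FL (a : L)⁻¹ = (w : FL) := by
    rw [map_inv₀]
    exact inv_eq_of_mul_eq_one_right hw'
  have hmem : (a : L)⁻¹ ∈ A := R.mem_of_algebraMap_mem _ (by rw [hinv]; exact w.2)
  refine IsUnit.of_mul_eq_one (⟨(a : L)⁻¹, hmem⟩ : A) ?_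
  apply Subtype.ext
  show (a : L) * (a : L)⁻¹ = 1
  exact mul_inv_cancel₀ ha0

variable (hx : algebraMap (RatFunc L) FL RatFunc.X ∈ R.O)
variable (hrx : R.red ⟨_, hx⟩ = algebraMap (RatFunc k) Fk RatFunc.X)

include hx hrx in
/-- **Gauss**: a polynomial `p ∈ L[X]` with `p(j)` Gauss-integral has coefficients in `A`. -/
theorem coeff_mem_of_mem_Vj (p : L[X]) (hp : algebraMap L[X] (RatFunc L) p ∈ Vj R) (i : ℕ) :
    p.coeff i ∈ A := by
  by_cases hp0 : p = 0
  · rw [hp0, coeff_zero]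
    exact A.zero_mem
  obtain ⟨c, p₀, hc, hp₀, hpe⟩ := exists_scale_poly π p hp0
  have hcA : c ∈ A := by
    by_contra hcn
    have hci : c⁻¹ ∈ A := (A.mem_or_inv_mem c).resolve_left hcn
    have hnu : ¬ IsUnit (⟨c⁻¹, hci⟩ : A) := by
      intro hu
      obtain ⟨w, hw⟩ := hu.exists_right_inv
      have hw' : c⁻¹ * (w : L) = 1 := congrArg Subtype.val hw
      apply hcn
      have : c = (w : L) := by
        have h1 := congrArg (fun z => c * z) hw'
        simp only [mul_one] at h1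
        rw [← mul_assoc, mul_inv_cancel₀ hc, one_mul] at h1
        exact h1.symm
      rw [this]
      exact w.2
    have hπ : π ⟨c⁻¹, hci⟩ = 0 := pi_eq_zero_of_not_isUnit R _ hnu
    -- `polyL p₀ = polyL (C c⁻¹) * p(j)` in `Vj`
    have hrel : (⟨polyL p₀, polyL_mem_Vj R hx p₀⟩ : Vj R) =
        ⟨polyL (C (⟨c⁻¹, hci⟩ : A)), polyL_mem_Vj R hx _⟩ * ⟨_, hp⟩ := by
      apply Subtype.ext
      show polyL p₀ = polyL (C (⟨c⁻¹, hci⟩ : A)) * algebraMap L[X] (RatFunc L) p
      rw [polyL_apply, polyL_apply, Polynomial.map_C, ← map_mul, hpe, ← mul_assoc, ← C_mul]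
      have : A.subtype ⟨c⁻¹, hci⟩ * c = 1 := inv_mul_cancel₀ hc
      rw [this, C_1, one_mul]
    have h1 := congrArg (redVj R hx hrx) hrel
    rw [map_mul, redVj_polyL, redVj_polyL, polyK_apply (π := π) (C _), Polynomial.map_C, hπ, C_0,
      map_zero, zero_mul] at h1
    exact polyK_ne_zero hp₀ h1
  rw [hpe, coeff_C_mul, coeff_map]
  exact A.mul_mem _ _ hcA (p₀.coeff i).2

/-- a polynomial with coefficients in `A` comes from `A[X]` -/
theorem exists_map_eq_of_coeff_mem (p : L[X]) (h : ∀ i, p.coeff i ∈ A) :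
    ∃ p₁ : A[X], p₁.map A.subtype = p := by
  have hl : p ∈ Polynomial.lifts A.subtype := by
    rw [Polynomial.lifts_iff_coeff_lifts]
    intro i
    exact ⟨⟨p.coeff i, h i⟩, rfl⟩
  exact (Polynomial.mem_lifts _).mp hl

/-- **finite chart**: `redVj (p(j)) ∈ k[j̄]`. -/
theorem hpoly_fin (p : L[X]) (hp : algebraMap L[X] (RatFunc L) p ∈ Vj R) :
    ∃ q : k[X], redVj R hx hrx ⟨_, hp⟩ = algebraMap k[X] (RatFunc k) q := by
  obtain ⟨p₁, rfl⟩ := exists_map_eq_of_coeff_mem (A := A) p (coeff_mem_of_mem_Vj R hx hrx p hp)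
  exact ⟨p₁.map π, redVj_polyL R hx hrx p₁⟩

/-! ### the chart at infinity -/

/-- `j` as an element of `Vj` -/
def XV : Vj R := ⟨polyL (X : A[X]), polyL_mem_Vj R hx X⟩

theorem coe_XV : ((XV R hx : Vj R) : RatFunc L) = RatFunc.X := by
  show polyL (X : A[X]) = RatFunc.X
  rw [polyL_apply, Polynomial.map_X, RatFunc.algebraMap_X]

theorem redVj_XV : redVj R hx hrx (XV R hx) = RatFunc.X := by
  show redVj R hx hrx ⟨polyL (X : A[X]), _⟩ = _
  rw [redVj_polyL, polyK_apply, Polynomial.map_X, RatFunc.algebraMap_X]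

include hrx in
theorem isUnit_XV : IsUnit (XV R hx) := by
  by_contra hnu
  have h0 := (redVj_eq_zero_iff R hx hrx _).mpr hnu
  rw [redVj_XV] at h0
  exact RatFunc.X_ne_zero h0

include hrx in
theorem inv_X_mem_Vj : (RatFunc.X : RatFunc L)⁻¹ ∈ Vj R := by
  obtain ⟨w, hw⟩ := (isUnit_XV R hx hrx).exists_right_inv
  have hw' : (RatFunc.X : RatFunc L) * (w : RatFunc L) = 1 := by
    have := congrArg Subtype.val hw
    rwa [show ((XV R hx * w : Vj R) : RatFunc L) = ((XV R hx : Vj R) : RatFunc L) * w from rfl,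
      coe_XV] at this
  rw [inv_eq_of_mul_eq_one_right hw']
  exact w.2

/-- `1/j` as an element of `Vj` -/
def XVinv : Vj R := ⟨(RatFunc.X : RatFunc L)⁻¹, inv_X_mem_Vj R hx hrx⟩

theorem redVj_XVinv : redVj R hx hrx (XVinv R hx hrx) = (RatFunc.X : RatFunc k)⁻¹ := by
  have h1 : XV R hx * XVinv R hx hrx = 1 := by
    apply Subtype.ext
    show ((XV R hx : Vj R) : RatFunc L) * (RatFunc.X : RatFunc L)⁻¹ = 1
    rw [coe_XV]
    exact mul_inv_cancel₀ RatFunc.X_ne_zero
  have h2 := congrArg (redVj R hx hrx) h1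
  rw [map_mul, map_one, redVj_XV] at h2
  exact (inv_eq_of_mul_eq_one_right h2).symm

/-- constants of `A` in `Vj` -/
def cV : A →+* Vj R where
  toFun a := ⟨polyL (C a), polyL_mem_Vj R hx (C a)⟩
  map_one' := by apply Subtype.ext; show polyL (C (1 : A)) = 1; rw [C_1, map_one]
  map_mul' a b := by
    apply Subtype.ext
    show polyL (C (a * b)) = polyL (C a) * polyL (C b)
    rw [C_mul, map_mul]
  map_zero' := by apply Subtype.ext; show polyL (C (0 : A)) = 0; rw [C_0, map_zero]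
  map_add' a b := by
    apply Subtype.ext
    show polyL (C (a + b)) = polyL (C a) + polyL (C b)
    rw [C_add, map_add]

theorem coe_cV (a : A) : ((cV R hx a : Vj R) : RatFunc L) = algebraMap L (RatFunc L) (a : L) := by
  show polyL (C a) = _
  rw [polyL_apply, Polynomial.map_C, RatFunc.algebraMap_C, RatFunc.algebraMap_eq_C]
  rfl

theorem redVj_cV (a : A) : redVj R hx hrx (cV R hx a) = algebraMap k (RatFunc k) (π a) := by
  show redVj R hx hrx ⟨polyL (C a), _⟩ = _
  rw [redVj_polyL, polyK_apply, Polynomial.map_C, RatFunc.algebraMap_C, RatFunc.algebraMap_eq_C]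

/-- integral polynomials in `1/j`, inside `Vj` -/
def evInv : A[X] →+* Vj R := eval₂RingHom (cV R hx) (XVinv R hx hrx)

theorem coe_evInv (p₁ : A[X]) :
    ((evInv R hx hrx p₁ : Vj R) : RatFunc L) =
      aeval (RatFunc.X : RatFunc L)⁻¹ (p₁.map A.subtype) := by
  show (Vj R).subtype (eval₂ (cV R hx) (XVinv R hx hrx) p₁) = _
  rw [hom_eval₂, aeval_def, eval₂_map]
  congr 1
  ext a
  exact coe_cV R hx a

theorem redVj_evInv (p₁ : A[X]) :
    redVj R hx hrx (evInv R hx hrx p₁) = aeval (RatFunc.X : RatFunc k)⁻¹ (p₁.map π) := by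
  show redVj R hx hrx (eval₂ (cV R hx) (XVinv R hx hrx) p₁) = _
  rw [hom_eval₂, aeval_def, eval₂_map, redVj_XVinv]
  congr 1
  ext a
  exact redVj_cV R hx hrx a

include hrx in
/-- **Gauss at infinity**: `p ∈ L[X]` with `p(1/j)` Gauss-integral has coefficients in `A`. -/
theorem coeff_mem_of_aeval_inv_mem_Vj (p : L[X])
    (hp : aeval (RatFunc.X : RatFunc L)⁻¹ p ∈ Vj R) (i : ℕ) : p.coeff i ∈ A := by
  set n := p.natDegree with hn
  -- `(reflect n p)(j) = p(1/j) * j^n ∈ Vj`
  have hrefl : algebraMap L[X] (RatFunc L) (reflect n p) =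
      aeval (RatFunc.X : RatFunc L)⁻¹ p * (RatFunc.X : RatFunc L) ^ n := by
    have h := eval₂_reflect_eq (algebraMap L (RatFunc L)) (RatFunc.X_ne_zero (K := L)) n p le_rfl
    rw [← aeval_def, ← aeval_def] at h
    rw [← h, ← RatFunc.algebraMap_X, aeval_algebraMap_apply, aeval_X_left_apply]
  have hmem : algebraMap L[X] (RatFunc L) (reflect n p) ∈ Vj R := by
    rw [hrefl]
    exact (Vj R).mul_mem _ _ hp
      ((Vj R).pow_mem (by rw [← coe_XV R hx]; exact (XV R hx).2) n)
  have h := coeff_mem_of_mem_Vj R hx hrx (reflect n p) hmem (revAt n i)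
  rwa [coeff_reflect, revAt_invol] at h

/-- **chart at infinity**: `redVj (p(1/j)) ∈ k[1/j̄]`. -/
theorem hpoly_inf (p : L[X]) (hp : aeval (RatFunc.X : RatFunc L)⁻¹ p ∈ Vj R) :
    ∃ q : k[X], redVj R hx hrx ⟨_, hp⟩ = aeval (RatFunc.X : RatFunc k)⁻¹ q := by
  obtain ⟨p₁, rfl⟩ := exists_map_eq_of_coeff_mem (A := A) p
    (coeff_mem_of_aeval_inv_mem_Vj R hx hrx p hp)
  refine ⟨p₁.map π, ?_⟩
  rw [← redVj_evInv R hx hrx p₁]
  congr 1
  apply Subtype.ext
  exact (coe_evInv R hx hrx p₁).symm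

end Fermat.Agent.S37.Diff.IntegralGauss
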