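/-
PROJECT I (S37), slice I-1b-diff, step (D3), `X₀(N)` instance (helper7): the characteristic-zero
ramification data of `F_L = ℚ̄(X₀(N))` over `ℚ̄(j)` in the shape of
`OrdBounds.integral_of_mem_canDiv`:

* `e ≤ 3` over `j = 0`, `e ≤ 2` over `j = 1728`, `e = 1` over the other finite values
  (`S18/C/S24Ram`);
* NEW: at a pole of `j` (a cusp) the pole order divides `N` (`ord_inv_jgen_dvd`,
  `neg_ord_jgen_le`), from the `q_N`-expansions at the cusps (`S24/OrbitsCuspAlt`) through the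
  local orbit lemma `S24Ram.ord_eq_card_orbit`;
* `integral_of_mem_canDiv_X0`: for a regular differential `w dj` on `X₀(N)`,
  `W = w j (j - 1728)`, `W^3/j`, `W^2/(j - 1728)` are integral over `ℚ̄[j]` and
  `Y = w (j - 1728)`, `Y^N j` are integral over `ℚ̄[1/j]`.
-/
import Mathlib
import Fermat.Agent.S18.C.S24Ram
import Fermat.Agent.S18.A.Instances
import Fermat.Agent.S24.OrbitsCuspAlt
import Fermat.Agent.S37.Diff.OrdBounds

set_option autoImplicit false

noncomputable section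

namespace Fermat.Agent.S37.Diff.RamX0

open AlgebraicCurve ModularCurve CongruenceSubgroup IntermediateField WithZero
open Fermat.Agent.S24 Fermat.Agent.S24.FF Fermat.Agent.S24.Ord Fermat.Agent.S24.DegreeAlg
open Fermat.Agent.S24.OrbitDefs
open Fermat.Agent.S18.A Fermat.Agent.S18.C Fermat.Agent.S37.Diff.OrdBounds
open scoped MatrixGroups

local notation "Kb" => AlgebraicClosure ℚ

variable (N : ℕ) [NeZero N]

/-- `SL(2,ℤ) ⧸ Γ₀(N)` is finite. -/
local instance fintypeQuot : Fintype (SL(2, ℤ) ⧸ Gamma0 N) := Fintype.ofFinite _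

/-- **Cusp widths divide `N`**: at a pole of `j` on `X₀(N)` the pole order divides `N`. -/
theorem ord_inv_jgen_dvd (v : Place Kb ↥(modularFunctionFieldBar N))
    (hv : (jgen N)⁻¹ ∈ v.toValuationSubring.nonunits) :
    v.ord (jgen N)⁻¹ ∣ (N : ℤ) := by
  have hx := Degree.isFF N
  have := Hurwitz.finite_inv_zeros hx
  have hcard : Fintype.card (SL(2, ℤ) ⧸ Gamma0 N) =
      Module.finrank Kb⟮jgen N⟯ ↥(modularFunctionFieldBar N) := by
    rw [Degree.finrank_eq_card N, Nat.card_eq_fintype_card]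
  have hN0 : 0 < N := Nat.pos_of_ne_zero (NeZero.ne N)
  obtain ⟨q, -, hq⟩ := S24Ram.ord_eq_card_orbit (K := Kb) OrbitDefs.v
    (ModularGroup.T : SL(2, ℤ)) (OrbitsCuspAlt.Lfam N) (jgen N)⁻¹
    (by rw [Hurwitz.finsum_ord_inv hx, hcard])
    (fun v hv => LemmaA.exists_place_eq_comap_inv OrbitDefs.v.valuationSubring
      (OrbitsCuspAlt.Lfam N) hx hcard (OrbitsCuspAlt.hinj N) (OrbitsCuspAlt.hconst N)
      (OrbitsCuspAlt.hLx N) (fun q c => OrbitsCuspAlt.hK N q c)
      (fun q => OrbitCount.mem_nonunits_of_eq_exp OrbitDefs.v hN0 (OrbitsCuspAlt.hm N q)) v hv)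
    N hN0 (OrbitsCuspAlt.hm N) (OrbitsCuspAlt.hsame N) (CuspWidth.card_orbit_dvd N)
    (OrbitsCuspAlt.hs N) v hv
  rw [hq]
  exact_mod_cast CuspWidth.card_orbit_dvd N q

/-- the pole order of `j` at a cusp of `X₀(N)` is at most `N` -/
theorem neg_ord_jgen_le (v : Place Kb ↥(modularFunctionFieldBar N))
    (hv : 1 < v.adicValuation (jgen N)) : -v.ord (jgen N) ≤ (N : ℤ) := by
  have hx := Degree.isFF N
  have hinv : v.adicValuation (jgen N)⁻¹ < 1 := by
    rw [map_inv₀]
    exact inv_lt_one_of_one_lt₀ hv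
  have h := ord_inv_jgen_dvd N v ((FibreSep.mem_nonunits_iff v _).mpr hinv)
  rw [Place.ord_inv] at h
  exact Int.le_of_dvd (by exact_mod_cast Nat.pos_of_ne_zero (NeZero.ne N)) h

/-- `e ≤ 3` over `j = 0` -/
theorem ord_jgen_le_three (v : Place Kb ↥(modularFunctionFieldBar N))
    (hv : v.adicValuation (jgen N - algebraMap Kb _ 0) < 1) :
    v.ord (jgen N - algebraMap Kb _ 0) ≤ 3 := by
  rcases S24Ram.ord_jgen_eq_one_or_three N v ((FibreSep.mem_nonunits_iff v _).mpr hv) with h | h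
  · rw [h]; norm_num
  · rw [h]

/-- `e ≤ 2` over `j = 1728` -/
theorem ord_jgen_sub_1728_le_two (v : Place Kb ↥(modularFunctionFieldBar N))
    (hv : v.adicValuation (jgen N - algebraMap Kb _ 1728) < 1) :
    v.ord (jgen N - algebraMap Kb _ 1728) ≤ 2 := by
  rcases S24Ram.ord_jgen_sub_1728_eq_one_or_two N v
    ((FibreSep.mem_nonunits_iff v _).mpr hv) with h | h
  · rw [h]; norm_num
  · rw [h]

/-- `e = 1` over the other finite values -/
theorem ord_jgen_sub_eq_one (a : Kb) (h0 : a ≠ 0) (h1728 : a ≠ 1728)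
    (v : Place Kb ↥(modularFunctionFieldBar N))
    (hv : v.adicValuation (jgen N - algebraMap Kb _ a) < 1) :
    v.ord (jgen N - algebraMap Kb _ a) = 1 :=
  S24Ram.ord_jgen_sub_eq_one N a h1728 h0 v ((FibreSep.mem_nonunits_iff v _).mpr hv)

/-- **(D3-L) for `X₀(N)`**: for a regular differential `w dj` (`w ∈ L(div dj)`), the five
elements of `OrdBounds` are integral over `ℚ̄[j]` resp. `ℚ̄[1/j]`. -/
theorem integral_of_mem_canDiv_X0 (w : ↥(modularFunctionFieldBar N))
    (hw : w ∈ riemannRochSpace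
      (canDiv (Instances.isFF_jgen N) (Instances.isSeparable_jgen N))) :
    w * jgen N * (jgen N - algebraMap Kb _ 1728) ∈ FibreSep.intRing Kb (jgen N) ∧
    (w * jgen N * (jgen N - algebraMap Kb _ 1728)) ^ 3 / jgen N ∈
      FibreSep.intRing Kb (jgen N) ∧
    (w * jgen N * (jgen N - algebraMap Kb _ 1728)) ^ 2 / (jgen N - algebraMap Kb _ 1728) ∈
      FibreSep.intRing Kb (jgen N) ∧
    w * (jgen N - algebraMap Kb _ 1728) ∈ FibreSep.intRing Kb (jgen N)⁻¹ ∧
    (w * (jgen N - algebraMap Kb _ 1728)) ^ N * jgen N ∈ FibreSep.intRing Kb (jgen N)⁻¹ :=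
  integral_of_mem_canDiv (Instances.isFF_jgen N) (Instances.isSeparable_jgen N)
    (c := (1728 : Kb)) (by norm_num)
    (ord_jgen_le_three N) (ord_jgen_sub_1728_le_two N)
    (fun a h0 h1728 v hv => ord_jgen_sub_eq_one N a h0 h1728 v hv)
    (Nat.pos_of_ne_zero (NeZero.ne N)) (neg_ord_jgen_le N) w hw

end Fermat.Agent.S37.Diff.RamX0
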