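/-
PROJECT I (S37), slice I-1b-diff, FINAL (helper23): `g(X₀(N)/ℚ̄) ≤ g(X₀(N)/k)` for every
valuation ring `A` of `ℚ̄` over a prime `ℓ ∤ N` with `1728 ≠ 0` in the residue field `k`
(i.e. `ℓ ≥ 5`), HYPOTHESIS-FREE: no `ReductionInputsModL`, no covers.

Instantiation of `Diff/Assembly.genus_le` at helper1's Gauss datum `Gauss.Datum.gaussDatum`:
(D1) `CanonicalCount` (helper11), (D2) `IntegralRed` + `IntegralGauss` (helper7),
(D3) `OrdBounds` + `RamX0` (helper7), (D4) `OrthoW`.
-/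
import Mathlib
import Fermat.Agent.S37.Diff.Assembly
import Fermat.Agent.S37.Diff.IntegralGauss
import Fermat.Agent.S37.Diff.RamX0
import Fermat.Agent.S37.Gauss.Datum
import Fermat.Agent.S18.C.KModelX0

set_option autoImplicit false
set_option linter.unusedSectionVars false
set_option linter.style.haveILetI false

noncomputable section

namespace Fermat.Agent.S37.Diff.GenusX0

open AlgebraicCurve ModularCurve IsLocalRing IntermediateField Polynomial
open Fermat.Agent.S24.DegreeAlg (jgen)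
open Fermat.Agent.S18.B.FkBasics (jk)
open Fermat.Agent.S18.C Fermat.Agent.S37.Gauss

local notation "Kb" => AlgebraicClosure ℚ

set_option synthInstance.maxHeartbeats 400000
set_option maxHeartbeats 1600000

attribute [local instance 2000] Fermat.Agent.S18.C.KModelX0.algkFk

variable {ℓ : ℕ} [Fact ℓ.Prime] {N : ℕ} [NeZero N] {A : ValuationSubring Kb}

/-- `1728` as an element of `A` -/
def c1728 (A : ValuationSubring Kb) : ↥A := ⟨1728, by
  have : (1728 : Kb) = ((1728 : ℕ) : Kb) := by norm_num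
  rw [this]
  exact natCast_mem A 1728⟩

theorem coe_c1728 (A : ValuationSubring Kb) : ((c1728 A : ↥A) : Kb) = 1728 := rfl

theorem residue_c1728 (A : ValuationSubring Kb) :
    residue ↥A (c1728 A) = (1728 : ResidueField ↥A) := by
  have h : c1728 A = ((1728 : ℕ) : ↥A) := by
    apply Subtype.ext
    rw [coe_c1728]
    push_cast
    rfl
  rw [h, map_natCast]
  norm_num

/-- **`gL ≤ gk` for `X₀(N)` when `1728 ≠ 0` in the residue field**, by reduction of regular
differentials. -/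
theorem genus_le_of_1728 (hA : A.LiesOverPrime ℓ) (hℓN : ¬ ℓ ∣ N)
    (h1728 : (1728 : ResidueField ↥A) ≠ 0) {gL gk : ℕ}
    (HL : Fermat.Agent.S18.NonSpecial.RiemannHyp Kb ↥(modularFunctionFieldBar N) gL)
    (Hk : Fermat.Agent.S18.NonSpecial.RiemannHyp (ResidueField ↥A)
      ↥(modularFunctionFieldFullC (ResidueField ↥A) N) gk) : gL ≤ gk := by
  haveI : IsAlgClosed (ResidueField ↥A) :=
    Fermat.Agent.S18.ResidueBasics.isAlgClosed_residueField A
  haveI := KModelX0.finiteDimensional_FL N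
  set R := Datum.gaussDatum N A hA hℓN with hR
  have hx : algebraMap (RatFunc Kb) ↥(modularFunctionFieldBar N) RatFunc.X ∈ R.O := by
    rw [ModularInst.algebraMap_FL_X]
    exact Datum.jgen_mem_O hA hℓN
  have hrx : R.red ⟨_, hx⟩ = algebraMap (RatFunc (ResidueField ↥A))
      ↥(modularFunctionFieldFullC (ResidueField ↥A) N) RatFunc.X := by
    rw [ModularInst.algebraMap_Fk_X]
    refine Eq.trans ?_ (Datum.red_jgen hA hℓN)
    congr 1
    exact Subtype.ext (ModularInst.algebraMap_FL_X N)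
  refine Assembly.genus_le R hx hrx (x := jgen N) (Fermat.Agent.S18.A.Instances.isFF_jgen N)
    (Fermat.Agent.S18.A.Instances.isSeparable_jgen N) (ModularInst.algebraMap_FL N)
    (xk := jk (ResidueField ↥A) N) (Fermat.Agent.S18.B.FkBasics.isFF (ResidueField ↥A) N)
    (Fermat.Agent.S18.B.SeparableFk.isSeparable_jk (ResidueField ↥A) N)
    (ModularInst.algebraMap_Fk_X N (ResidueField ↥A))
    (Datum.red_surjective hA hℓN) (KModelX0.finrank_le hA hℓN)
    (IntegralGauss.hpoly_fin R hx hrx) (IntegralGauss.hpoly_inf R hx hrx)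
    (c1728 A) (by rw [residue_c1728]; exact h1728) N
    (fun w hw => RamX0.integral_of_mem_canDiv_X0 N w hw) HL Hk

/-- `1728 = 2^6 * 3^3` is nonzero in the residue field when `ℓ ≠ 2, 3`. -/
theorem ne_zero_1728 (hA : A.LiesOverPrime ℓ) (h2 : ℓ ≠ 2) (h3 : ℓ ≠ 3) :
    (1728 : ResidueField ↥A) ≠ 0 := by
  haveI : CharP (ResidueField ↥A) ℓ := Fermat.Agent.S18.ResidueBasics.charP_residueField A hA
  have hℓ : ℓ.Prime := Fact.out
  intro h0
  have h1 : ((1728 : ℕ) : ResidueField ↥A) = 0 := by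
    rw [← h0]
    norm_num
  rw [CharP.cast_eq_zero_iff (ResidueField ↥A) ℓ] at h1
  have h4 : (1728 : ℕ) = 2 ^ 6 * 3 ^ 3 := by norm_num
  rw [h4] at h1
  rcases (Nat.Prime.dvd_mul hℓ).mp h1 with h | h
  · exact h2 ((Nat.prime_dvd_prime_iff_eq hℓ Nat.prime_two).mp (hℓ.dvd_of_dvd_pow h))
  · exact h3 ((Nat.prime_dvd_prime_iff_eq hℓ Nat.prime_three).mp (hℓ.dvd_of_dvd_pow h))

/-- **`gL ≤ gk` for `X₀(N)` at every prime `ℓ ∤ N`, `ℓ ≠ 2, 3`**, hypothesis-free; in the shape
of the hypothesis `hg` of `reductionInputsModL_of_genus_le`. -/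
theorem genus_le (hA : A.LiesOverPrime ℓ) (hℓN : ¬ ℓ ∣ N) (h2 : ℓ ≠ 2) (h3 : ℓ ≠ 3) :
    ∀ gL gk : ℕ, Fermat.Agent.S18.NonSpecial.RiemannHyp Kb ↥(modularFunctionFieldBar N) gL →
      Fermat.Agent.S18.NonSpecial.RiemannHyp (ResidueField ↥A)
        ↥(modularFunctionFieldFullC (ResidueField ↥A) N) gk → gL ≤ gk :=
  fun _ _ HL Hk => genus_le_of_1728 hA hℓN (ne_zero_1728 hA h2 h3) HL Hk

end Fermat.Agent.S37.Diff.GenusX0
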