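import Mathlib
import Fermat.Agent.S37.Deuring.Core
import Fermat.Agent.S18.C.GaussRing
import Fermat.Agent.S24.Fibre

/-!
# PROJECT I (S37), slice I-1b-diff (D2): the integrality lemma

`G : Deuring.Core.GaussDatum A π FL Fk` a Gauss datum (valuation ring `O` of `FL` above `A`,
reduction `red : O → Fk`), `x ∈ O` with `x̄ := red x` transcendental over `k`.

* `constHom`, `evO`, `coe_evO`, `red_evO` : constants and evaluation of `A[X]` at `x` inside `O`;
* `exists_prim` (Gauss normalisation), `isUnit_evO` (primitive polynomials take unit values),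
  `transcendental_of_red`, `exists_of_aeval_mem` (a Gauss-integral polynomial in `x` has
  coefficients in `A`);
* `red_mem_polyRing` : `O ∩ L[x]` reduces into `k[x̄]`;  `red_mem_adjoin` : `O ∩ L(x)` reduces into
  `k(x̄)` (the restriction of `O` to `L(x)` is the Gauss valuation ring);
* `coeff_mem_of_sum_mem` (orthonormality), `leftMulMatrix_mem`, `coeff_minpoly_mem`;
* **`red_mem_intRing`** (D2): for an `L(x)`-basis `b` of `FL` inside `O` with `k(x̄)`-independent
  reductions, `f ∈ O` integral over `L[x]` ⟹ `red f` integral over `k[x̄]`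
  (`S24.Fibre.intRing` on both sides); `red_mem_intRing'` with free names for `L(x)`, `k(x̄)`.
-/

set_option autoImplicit false
set_option linter.unusedSectionVars false
set_option linter.style.haveILetI false

noncomputable section

namespace Fermat.Agent.S37.Diff.IntegralRedGauss

open Polynomial IntermediateField Fermat.Agent.S37.Deuring.Core
open Fermat.Agent.S18.C.Defs Fermat.Agent.S18.C.GaussRing Fermat.Agent.S24.Fibre

variable {L : Type*} [Field L] {k : Type*} [Field k] {A : ValuationSubring L} {π : A →+* k}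
variable {FL : Type*} [Field FL] [Algebra L FL] {Fk : Type*} [Field Fk] [Algebra k Fk]
variable (G : GaussDatum A π FL Fk)

/-! ### Constants and evaluation at `x` -/

/-- the constants `A → O` as a ring homomorphism -/
def constHom : A →+* G.O where
  toFun := G.const
  map_one' := Subtype.ext (by simp)
  map_mul' a b := Subtype.ext (by simp)
  map_zero' := Subtype.ext (by simp)
  map_add' a b := Subtype.ext (by simp)

@[simp] theorem coe_constHom (a : A) : ((constHom G a : G.O) : FL) = algebraMap L FL (a : L) := rfl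

@[simp] theorem red_constHom (a : A) : G.red (constHom G a) = algebraMap k Fk (π a) :=
  G.red_algebraMap a

variable {x : FL} (hxO : x ∈ G.O)

/-- evaluation of polynomials over `A` at `x ∈ O` -/
def evO : A[X] →+* G.O := Polynomial.eval₂RingHom (constHom G) ⟨x, hxO⟩

theorem coe_evO (P : A[X]) : ((evO G hxO P : G.O) : FL) = aeval x (P.map A.subtype) := by
  have h : (G.O.subtype : G.O →+* FL).comp (evO G hxO) =
      ((aeval x : L[X] →ₐ[L] FL) : L[X] →+* FL).comp (Polynomial.mapRingHom A.subtype) := by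
    refine Polynomial.ringHom_ext (fun a => ?_) ?_
    · simp [evO]
    · simp [evO]
  exact RingHom.congr_fun h P

theorem red_evO (P : A[X]) :
    G.red (evO G hxO P) = aeval (G.red ⟨x, hxO⟩) (P.map π) := by
  have h : G.red.comp (evO G hxO) =
      ((aeval (G.red ⟨x, hxO⟩) : k[X] →ₐ[k] Fk) : k[X] →+* Fk).comp (Polynomial.mapRingHom π) := by
    refine Polynomial.ringHom_ext (fun a => ?_) ?_
    · simp [evO]
    · simp [evO]
  exact RingHom.congr_fun h P

/-! ### Primitive polynomials -/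

/-- **Gauss normalisation**: a nonzero polynomial over `L` is a constant times a polynomial over
`A` with a unit coefficient. -/
theorem exists_prim {P : L[X]} (hP : P ≠ 0) :
    ∃ (c : L) (P₀ : A[X]), c ≠ 0 ∧ (∃ i, IsUnit (P₀.coeff i)) ∧ P = C c * P₀.map A.subtype := by
  obtain ⟨c, hc, hprim⟩ := exists_smul_isPrim (V := A) hP
  obtain ⟨P₀, hP₀⟩ := hprim.1
  obtain ⟨i, hi⟩ := hprim.2
  refine ⟨c⁻¹, P₀, inv_ne_zero hc, ⟨i, ?_⟩, ?_⟩
  · rw [A.valuation_eq_one_iff]
    have : ((P₀.coeff i : A) : L) = (C c * P).coeff i := by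
      rw [← hP₀]
      simp
    rw [this]
    exact hi
  · have h1 : P₀.map A.subtype = C c * P := hP₀
    rw [h1, ← mul_assoc, ← C_mul, inv_mul_cancel₀ hc, C_1, one_mul]

variable (hxbar : Transcendental k (G.red ⟨x, hxO⟩))

include hxbar in
/-- a polynomial over `A` with a unit coefficient takes a unit value at `x` -/
theorem isUnit_evO {P : A[X]} (hP : ∃ i, IsUnit (P.coeff i)) : IsUnit (evO G hxO P) := by
  by_contra hnu
  have h0 : G.red (evO G hxO P) = 0 := (G.red_eq_zero_iff _).mpr hnu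
  rw [red_evO] at h0
  have h1 : P.map π = 0 := by
    by_contra hne
    exact hxbar ⟨P.map π, hne, h0⟩
  obtain ⟨i, hi⟩ := hP
  have h2 : π (P.coeff i) = 0 := by
    have := congrArg (fun q => q.coeff i) h1
    simpa using this
  exact (hi.map π).ne_zero h2

include hxbar in
/-- `x` is transcendental over `L` -/
theorem transcendental_of_red : Transcendental L x := by
  rintro ⟨P, hP, hP0⟩
  obtain ⟨c, P₀, hc, hprim, rfl⟩ := exists_prim (A := A) hP
  have hu := isUnit_evO G hxO hxbar hprim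
  have h1 : ((evO G hxO P₀ : G.O) : FL) = 0 := by
    rw [coe_evO]
    rw [map_mul, aeval_C] at hP0
    rcases mul_eq_zero.mp hP0 with h | h
    · exact absurd ((map_eq_zero _).mp h) hc
    · exact h
  have h2 : evO G hxO P₀ = 0 := Subtype.ext h1
  rw [h2] at hu
  exact not_isUnit_zero hu

include hxbar in
/-- a polynomial in `x` which is Gauss-integral has coefficients in `A` -/
theorem exists_of_aeval_mem {P : L[X]} (h : aeval x P ∈ G.O) :
    ∃ P' : A[X], P'.map A.subtype = P := by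
  by_cases hP : P = 0
  · exact ⟨0, by rw [hP, Polynomial.map_zero]⟩
  obtain ⟨c, P₀, hc, hprim, rfl⟩ := exists_prim (A := A) hP
  obtain ⟨u, hu⟩ := isUnit_evO G hxO hxbar hprim
  have h1 : aeval x (C c * P₀.map A.subtype) = algebraMap L FL c * ((u : G.O) : FL) := by
    rw [map_mul, aeval_C, hu, coe_evO]
  have h2 : algebraMap L FL c = aeval x (C c * P₀.map A.subtype) * (((u⁻¹ : G.Oˣ) : G.O) : FL) := by
    rw [h1, mul_assoc]
    have : ((u : G.O) : FL) * (((u⁻¹ : G.Oˣ) : G.O) : FL) = 1 := by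
      have h4 : (((u : G.O) * ((u⁻¹ : G.Oˣ) : G.O) : G.O) : FL) = ((1 : G.O) : FL) := by
        rw [u.mul_inv]
      exact h4
    rw [this, mul_one]
  have h3 : algebraMap L FL c ∈ G.O := by
    rw [h2]
    exact G.O.mul_mem _ _ h (Subtype.mem _)
  have hcA : c ∈ A := G.mem_of_algebraMap_mem c h3
  refine ⟨C ⟨c, hcA⟩ * P₀, ?_⟩
  rw [Polynomial.map_mul, Polynomial.map_C]
  rfl

include hxbar in
/-- **(G-b)** a Gauss-integral element of `L[x]` reduces into `k[x̄]` -/
theorem red_mem_polyRing (y : G.O) (hy : (y : FL) ∈ polyRing L x) :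
    G.red y ∈ polyRing k (G.red ⟨x, hxO⟩) := by
  rw [polyRing, Algebra.adjoin_singleton_eq_range_aeval] at hy
  obtain ⟨P, hP⟩ := hy
  have hP' : aeval x P = (y : FL) := hP
  obtain ⟨P', rfl⟩ := exists_of_aeval_mem G hxO hxbar (P := P) (by rw [hP']; exact y.2)
  have hy' : y = evO G hxO P' := Subtype.ext (by rw [coe_evO, hP'])
  rw [hy', red_evO]
  exact Polynomial.aeval_mem_adjoin_singleton k _

theorem aeval_mem_adjoin_simple {K F : Type*} [Field K] [Field F] [Algebra K F] (z : F)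
    (p : K[X]) : aeval z p ∈ K⟮z⟯ := by
  have h1 : aeval z p ∈ Algebra.adjoin K {z} := Polynomial.aeval_mem_adjoin_singleton K z
  exact IntermediateField.algebra_adjoin_le_adjoin K {z} h1

include hxbar in
/-- **(G-a)** a Gauss-integral element of `L(x)` reduces into `k(x̄)` -/
theorem red_mem_adjoin (y : G.O) (hy : (y : FL) ∈ L⟮x⟯) :
    G.red y ∈ k⟮G.red ⟨x, hxO⟩⟯ := by
  obtain ⟨r, s, hrs⟩ := (IntermediateField.mem_adjoin_simple_iff L (y : FL)).mp hy
  by_cases hy0 : y = 0
  · rw [hy0, map_zero]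
    exact zero_mem _
  have hyne : (y : FL) ≠ 0 := fun h => hy0 (Subtype.ext h)
  have hr : r ≠ 0 := by
    rintro rfl
    rw [map_zero, zero_div] at hrs
    exact hyne hrs
  have hs0 : aeval x s ≠ 0 := by
    intro h
    rw [h, div_zero] at hrs
    exact hyne hrs
  have hs : s ≠ 0 := by
    rintro rfl
    exact hs0 (map_zero _)
  obtain ⟨cr, r₀, hcr, hrprim, rfl⟩ := exists_prim (A := A) hr
  obtain ⟨cs, s₀, hcs, hsprim, rfl⟩ := exists_prim (A := A) hs
  obtain ⟨ur, hur⟩ := isUnit_evO G hxO hxbar hrprim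
  obtain ⟨us, hus⟩ := isUnit_evO G hxO hxbar hsprim
  have e1 : aeval x (C cr * r₀.map A.subtype) = algebraMap L FL cr * ((ur : G.O) : FL) := by
    rw [map_mul, aeval_C, hur, coe_evO]
  have e2 : aeval x (C cs * s₀.map A.subtype) = algebraMap L FL cs * ((us : G.O) : FL) := by
    rw [map_mul, aeval_C, hus, coe_evO]
  have hur0 : ((ur : G.O) : FL) ≠ 0 := fun h => ur.ne_zero (Subtype.ext h)
  have hus0 : ((us : G.O) : FL) ≠ 0 := fun h => us.ne_zero (Subtype.ext h)
  have hcs' : algebraMap L FL cs ≠ 0 := (_root_.map_ne_zero _).mpr hcs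
  -- the constant `c = cr / cs` lies in `A`
  have h3 : algebraMap L FL (cr / cs) = (y : FL) * ((us : G.O) : FL) *
      (((ur⁻¹ : G.Oˣ) : G.O) : FL) := by
    have hinv : ((ur : G.O) : FL) * (((ur⁻¹ : G.Oˣ) : G.O) : FL) = 1 := by
      have h4 : (((ur : G.O) * ((ur⁻¹ : G.Oˣ) : G.O) : G.O) : FL) = ((1 : G.O) : FL) := by
        rw [ur.mul_inv]
      exact h4
    rw [hrs, e1, e2, map_div₀]
    field_simp
    rw [mul_assoc, hinv, mul_one]
  have hcA : cr / cs ∈ A := by
    apply G.mem_of_algebraMap_mem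
    rw [h3]
    exact G.O.mul_mem _ _ (G.O.mul_mem _ _ y.2 (Subtype.mem _)) (Subtype.mem _)
  -- `y = const c * ur * us⁻¹`
  have hy' : y = constHom G ⟨cr / cs, hcA⟩ * (ur : G.O) * ((us⁻¹ : G.Oˣ) : G.O) := by
    apply Subtype.ext
    have hinv : ((us : G.O) : FL) * (((us⁻¹ : G.Oˣ) : G.O) : FL) = 1 := by
      have h4 : (((us : G.O) * ((us⁻¹ : G.Oˣ) : G.O) : G.O) : FL) = ((1 : G.O) : FL) := by
        rw [us.mul_inv]
      exact h4
    have hinv' : (((us⁻¹ : G.Oˣ) : G.O) : FL) = (((us : G.O) : FL))⁻¹ :=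
      eq_inv_of_mul_eq_one_right hinv
    show (y : FL) = algebraMap L FL (cr / cs) * ((ur : G.O) : FL) * (((us⁻¹ : G.Oˣ) : G.O) : FL)
    rw [hinv', hrs, e1, e2, map_div₀]
    field_simp
  rw [hy', map_mul, map_mul, red_constHom, hur, red_evO]
  have hredinv : G.red ((us⁻¹ : G.Oˣ) : G.O) = (G.red (us : G.O))⁻¹ := by
    apply eq_inv_of_mul_eq_one_left
    rw [← map_mul, Units.inv_mul, map_one]
  rw [hredinv, hus, red_evO]
  refine mul_mem (mul_mem (IntermediateField.algebraMap_mem _ _) (aeval_mem_adjoin_simple _ _))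
    (inv_mem (aeval_mem_adjoin_simple _ _))

/-! ### Orthonormality -/

include hxbar in
/-- **Orthonormality**: if the reductions of `t_j ∈ O` are `k(x̄)`-linearly independent, a
combination `∑ m_j t_j` with coefficients in `L(x)` is Gauss-integral only if all `m_j` are. -/
theorem coeff_mem_of_sum_mem {ι : Type*} [Fintype ι] (t : ι → G.O)
    (hind : LinearIndependent k⟮G.red ⟨x, hxO⟩⟯ fun i => G.red (t i))
    (m : ι → L⟮x⟯) (hsum : ∑ j, ((m j : L⟮x⟯) : FL) * ((t j : G.O) : FL) ∈ G.O) :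
    ∀ j, ((m j : L⟮x⟯) : FL) ∈ G.O := by
  classical
  by_contra hcon
  push Not at hcon
  obtain ⟨j₁, hj₁⟩ := hcon
  obtain ⟨j₀, -, hmax⟩ := Finset.exists_max_image Finset.univ
    (fun j => G.O.valuation ((m j : L⟮x⟯) : FL)) ⟨j₁, Finset.mem_univ _⟩
  have hj₀ : ((m j₀ : L⟮x⟯) : FL) ∉ G.O := by
    intro h
    apply hj₁
    rw [← G.O.valuation_le_one_iff] at h ⊢
    exact (hmax j₁ (Finset.mem_univ _)).trans h
  have hv1 : 1 < G.O.valuation ((m j₀ : L⟮x⟯) : FL) := by
    rw [← not_le, G.O.valuation_le_one_iff]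
    exact hj₀
  have hne : ((m j₀ : L⟮x⟯) : FL) ≠ 0 := fun h => hj₀ (by rw [h]; exact zero_mem _)
  have hvpos : 0 < G.O.valuation ((m j₀ : L⟮x⟯) : FL) := lt_trans zero_lt_one hv1
  -- the normalised coefficients
  have hw : ∀ j, (((m j / m j₀ : L⟮x⟯) : L⟮x⟯) : FL) ∈ G.O := by
    intro j
    rw [← G.O.valuation_le_one_iff]
    have : (((m j / m j₀ : L⟮x⟯) : L⟮x⟯) : FL) =
        ((m j : L⟮x⟯) : FL) / ((m j₀ : L⟮x⟯) : FL) := rfl
    rw [this, map_div₀]
    exact div_le_one_of_le₀ (hmax j (Finset.mem_univ _)) zero_le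
  have hvinv : G.O.valuation (((m j₀ : L⟮x⟯) : FL))⁻¹ < 1 := by
    rw [map_inv₀]
    exact (inv_lt_one₀ hvpos).mpr hv1
  have hinvO : (((m j₀ : L⟮x⟯) : FL))⁻¹ ∈ G.O := (G.O.valuation_le_one_iff _).mp hvinv.le
  have hnu : ¬ IsUnit (⟨_, hinvO⟩ : G.O) := by
    have h1 : (⟨_, hinvO⟩ : G.O) ∈ IsLocalRing.maximalIdeal G.O :=
      (G.O.valuation_lt_one_iff _).mpr hvinv
    exact (IsLocalRing.mem_maximalIdeal _).mp h1
  -- the identity in `O`
  have hid : (⟨_, hinvO⟩ : G.O) * ⟨_, hsum⟩ =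
      ∑ j, (⟨_, hw j⟩ : G.O) * t j := by
    apply Subtype.ext
    have h2 : ((∑ j, (⟨_, hw j⟩ : G.O) * t j : G.O) : FL) =
        ∑ j, (((m j / m j₀ : L⟮x⟯) : L⟮x⟯) : FL) * ((t j : G.O) : FL) := by
      rw [← ValuationSubring.subtype_apply, map_sum]
      rfl
    rw [h2]
    show (((m j₀ : L⟮x⟯) : FL))⁻¹ * ∑ j, ((m j : L⟮x⟯) : FL) * ((t j : G.O) : FL) = _
    rw [Finset.mul_sum]
    refine Finset.sum_congr rfl fun j _ => ?_
    have : (((m j / m j₀ : L⟮x⟯) : L⟮x⟯) : FL) =
        ((m j : L⟮x⟯) : FL) / ((m j₀ : L⟮x⟯) : FL) := rfl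
    rw [this]
    field_simp
  have hred := congrArg G.red hid
  rw [map_mul, (G.red_eq_zero_iff _).mpr hnu, zero_mul, map_sum] at hred
  -- the coefficients of the reduced relation lie in `k(x̄)`
  set γ : ι → k⟮G.red ⟨x, hxO⟩⟯ := fun j =>
    ⟨G.red ⟨_, hw j⟩, red_mem_adjoin G hxO hxbar ⟨_, hw j⟩ (m j / m j₀).2⟩ with hγ
  have hrel : ∑ j, γ j • G.red (t j) = 0 := by
    rw [hred]
    refine Finset.sum_congr rfl fun j _ => ?_
    rw [map_mul]
    rfl
  have hzero := Fintype.linearIndependent_iff.mp hind γ hrel j₀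
  have hone : γ j₀ = 1 := by
    apply Subtype.ext
    show G.red ⟨_, hw j₀⟩ = 1
    have : (⟨_, hw j₀⟩ : G.O) = 1 := by
      apply Subtype.ext
      show (((m j₀ / m j₀ : L⟮x⟯) : L⟮x⟯) : FL) = 1
      have hne' : m j₀ ≠ 0 := fun h => hne (by rw [h]; rfl)
      rw [div_self hne']
      rfl
    rw [this, map_one]
  rw [hone] at hzero
  exact one_ne_zero hzero

/-! ### The integrality lemma -/

open scoped IntermediateField.algebraAdjoinAdjoin

include hxbar in
/-- the multiplication matrix of a Gauss-integral element in an orthonormal basis has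
Gauss-integral entries -/
theorem leftMulMatrix_mem {ι : Type*} [Fintype ι] [DecidableEq ι] (b : Module.Basis ι L⟮x⟯ FL)
    (hb : ∀ i, b i ∈ G.O)
    (hind : LinearIndependent k⟮G.red ⟨x, hxO⟩⟯ fun i => G.red ⟨b i, hb i⟩)
    (f : G.O) (i j : ι) :
    ((Algebra.leftMulMatrix b (f : FL) i j : L⟮x⟯) : FL) ∈ G.O := by
  have hsum : ∑ i', ((Algebra.leftMulMatrix b (f : FL) i' j : L⟮x⟯) : FL) *
      (((⟨b i', hb i'⟩ : G.O) : G.O) : FL) ∈ G.O := by
    have h1 : ∑ i', ((Algebra.leftMulMatrix b (f : FL) i' j : L⟮x⟯) : FL) * b i' =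
        (f : FL) * b j := by
      conv_rhs => rw [← b.sum_repr ((f : FL) * b j)]
      refine Finset.sum_congr rfl fun i' _ => ?_
      rw [Algebra.leftMulMatrix_eq_repr_mul, IntermediateField.smul_def, smul_eq_mul]
    show ∑ i', ((Algebra.leftMulMatrix b (f : FL) i' j : L⟮x⟯) : FL) * b i' ∈ G.O
    rw [h1]
    exact G.O.mul_mem _ _ f.2 (hb j)
  exact coeff_mem_of_sum_mem G hxO hxbar (fun i' => ⟨b i', hb i'⟩) hind
    (fun i' => Algebra.leftMulMatrix b (f : FL) i' j) hsum i

include hxbar in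
/-- the minimal polynomial over `L(x)` of a Gauss-integral element has Gauss-integral
coefficients (orthonormal basis: the Gauss valuation extends uniquely) -/
theorem coeff_minpoly_mem {ι : Type*} [Fintype ι] [DecidableEq ι] (b : Module.Basis ι L⟮x⟯ FL)
    (hb : ∀ i, b i ∈ G.O)
    (hind : LinearIndependent k⟮G.red ⟨x, hxO⟩⟯ fun i => G.red ⟨b i, hb i⟩)
    (f : G.O) (n : ℕ) :
    (((minpoly L⟮x⟯ (f : FL)).coeff n : L⟮x⟯) : FL) ∈ G.O := by
  haveI : FiniteDimensional L⟮x⟯ FL := Module.Finite.of_basis b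
  -- the Gauss valuation ring of `L(x)`
  set W : ValuationSubring L⟮x⟯ := G.O.comap (algebraMap L⟮x⟯ FL) with hW
  set M : Matrix ι ι L⟮x⟯ := Algebra.leftMulMatrix b (f : FL) with hM
  have hMW : ∀ i j, M i j ∈ W := fun i j => leftMulMatrix_mem G hxO hxbar b hb hind f i j
  set MW : Matrix ι ι W := fun i j => ⟨M i j, hMW i j⟩ with hMWdef
  have hmap : MW.map (algebraMap W L⟮x⟯) = M := by
    ext i j
    rfl
  have hchar : M.charpoly = MW.charpoly.map (algebraMap W L⟮x⟯) := by
    rw [← Matrix.charpoly_map, hmap]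
  have hroot : aeval (f : FL) M.charpoly = 0 := by
    apply Algebra.leftMulMatrix_injective b
    rw [← Polynomial.aeval_algHom_apply, map_zero]
    exact Matrix.aeval_self_charpoly M
  have hdvd : minpoly L⟮x⟯ (f : FL) ∣ MW.charpoly.map (algebraMap W L⟮x⟯) := by
    rw [← hchar]
    exact minpoly.dvd _ _ hroot
  obtain ⟨g', hg'⟩ := IsIntegrallyClosed.eq_map_mul_C_of_dvd L⟮x⟯ (Matrix.charpoly_monic MW) hdvd
  have hmonic : (minpoly L⟮x⟯ (f : FL)).Monic :=
    minpoly.monic (Algebra.IsIntegral.isIntegral (f : FL))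
  rw [hmonic.leadingCoeff, C_1, mul_one] at hg'
  rw [← hg', coeff_map]
  exact (g'.coeff n).2

include hxbar in
/-- **(D2) THE INTEGRALITY LEMMA.**  `G` a Gauss datum, `x ∈ O` with `x̄ = red x` transcendental
over `k`, `b` an `L(x)`-basis of `FL` inside `O` whose reductions are `k(x̄)`-linearly independent
(an orthonormal basis).  If `f ∈ O` is integral over `L[x]`, then `red f` is integral over
`k[x̄]`. -/
theorem red_mem_intRing {ι : Type*} [Fintype ι] [DecidableEq ι] (b : Module.Basis ι L⟮x⟯ FL)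
    (hb : ∀ i, b i ∈ G.O)
    (hind : LinearIndependent k⟮G.red ⟨x, hxO⟩⟯ fun i => G.red ⟨b i, hb i⟩)
    (f : G.O) (hf : (f : FL) ∈ intRing L x) :
    G.red f ∈ intRing k (G.red ⟨x, hxO⟩) := by
  have hx : Transcendental L x := transcendental_of_red G hxO hxbar
  haveI : IsPrincipalIdealRing (polyRing L x) := isPID hx
  have hfint : IsIntegral (polyRing L x) (f : FL) := hf
  -- the minimal polynomial over `L(x)` has coefficients in `L[x]` and in `O`
  set q := minpoly L⟮x⟯ (f : FL) with hq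
  have hq1 : q = (minpoly (polyRing L x) (f : FL)).map (algebraMap (polyRing L x) L⟮x⟯) :=
    minpoly.isIntegrallyClosed_eq_field_fractions' L⟮x⟯ hfint
  have hqmonic : q.Monic := by
    rw [hq1]
    exact (minpoly.monic hfint).map _
  have hqroot : aeval (f : FL) q = 0 := minpoly.aeval _ _
  have hcoeffR : ∀ n, ((q.coeff n : L⟮x⟯) : FL) ∈ polyRing L x := by
    intro n
    rw [hq1, coeff_map]
    exact ((minpoly (polyRing L x) (f : FL)).coeff n).2
  have hcoeffO : ∀ n, ((q.coeff n : L⟮x⟯) : FL) ∈ G.O :=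
    fun n => coeff_minpoly_mem G hxO hxbar b hb hind f n
  -- the subring `T = L[x] ∩ O` of `FL`
  set T : Subring FL := (polyRing L x).toSubring ⊓ G.O.toSubring with hT
  set qF : FL[X] := q.map (algebraMap L⟮x⟯ FL) with hqF
  have hqFcoeff : (↑qF.coeffs : Set FL) ⊆ T := by
    intro c hc
    obtain ⟨n, -, rfl⟩ := Polynomial.mem_coeffs_iff.mp hc
    rw [hqF, coeff_map]
    exact ⟨hcoeffR n, hcoeffO n⟩
  set qT : T[X] := qF.toSubring T hqFcoeff with hqT
  have hqTmonic : qT.Monic := (Polynomial.monic_toSubring qF T hqFcoeff).mpr (hqmonic.map _)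
  -- the inclusion `T → O` and the reduction `T → k[x̄]`
  let incl : T →+* G.O :=
    { toFun := fun y => ⟨(y : FL), y.2.2⟩
      map_one' := rfl
      map_mul' := fun _ _ => rfl
      map_zero' := rfl
      map_add' := fun _ _ => rfl }
  let ρ : T →+* polyRing k (G.red ⟨x, hxO⟩) :=
    (G.red.comp incl).codRestrict (polyRing k (G.red ⟨x, hxO⟩))
      (fun y => red_mem_polyRing G hxO hxbar (incl y) y.2.1)
  have hcomp : (algebraMap (polyRing k (G.red ⟨x, hxO⟩)) Fk).comp ρ = G.red.comp incl := by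
    ext y
    rfl
  have hev : Polynomial.eval₂ incl f qT = 0 := by
    apply Subtype.ext
    have h1 : ((Polynomial.eval₂ incl f qT : G.O) : FL) =
        Polynomial.eval₂ (T.subtype) (f : FL) qT := by
      have h2 : (G.O.subtype : G.O →+* FL).comp incl = T.subtype := by
        ext y
        rfl
      rw [← h2, ← ValuationSubring.subtype_apply, Polynomial.hom_eval₂]
      rfl
    rw [h1, ← Polynomial.eval_map, hqT, Polynomial.map_toSubring, hqF, Polynomial.eval_map,
      ← Polynomial.aeval_def, hqroot]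
    rfl
  refine ⟨qT.map ρ, hqTmonic.map ρ, ?_⟩
  rw [Polynomial.eval₂_map, hcomp, ← Polynomial.hom_eval₂, hev, map_zero]

include hxbar in
/-- **(D2)**, flexible form: the same with arbitrary names `E = L(x)`, `E' = k(x̄)` for the two
rational subfields (e.g. `E = L(j)` and `x = 1/j`). -/
theorem red_mem_intRing' (E : IntermediateField L FL) (hE : E = L⟮x⟯)
    (E' : IntermediateField k Fk) (hE' : E' = k⟮G.red ⟨x, hxO⟩⟯)
    {ι : Type*} [Fintype ι] [DecidableEq ι] (b : Module.Basis ι E FL)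
    (hb : ∀ i, b i ∈ G.O)
    (hind : LinearIndependent E' fun i => G.red ⟨b i, hb i⟩)
    (f : G.O) (hf : (f : FL) ∈ intRing L x) :
    G.red f ∈ intRing k (G.red ⟨x, hxO⟩) := by
  subst hE hE'
  exact red_mem_intRing G hxO hxbar b hb hind f hf

end Fermat.Agent.S37.Diff.IntegralRedGauss
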