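/-
PROJECT I (S37), slice I-1b-diff, part (D4) (helper23): ORTHONORMAL BASES OF ARBITRARY
FINITE-DIMENSIONAL SUBSPACES.

`Deuring/OrthoBasis.ob_of_onb` proves `ell D ≤ dim red (L(D) ∩ O)` for EFFECTIVE `D` (the shape of
`GaussDatum.OB`); its proof never uses effectivity, nor that the subspace is a Riemann-Roch space.
Here the same argument is stated for an arbitrary finite-dimensional `L`-subspace `W ⊆ FL`
(`exists_red_independent_of_onb`): `W` contains `dim W` elements of `O` whose reductions are
`k`-linearly independent.  We need it for `W = L(div dx)`, which is not effective.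

Second half: the two hypotheses `(i)`, `(ii)` of that statement from an orthonormal basis in the
`RatFunc` shape of `S18/C/UnramVal.Hyp` (`linearIndependent_monomials_rat`,
`exists_denominator_rat`), and the combined statement `exists_red_independent_of_hyp`.
-/
import Mathlib
import Fermat.Agent.S37.Deuring.OrthoBasis
import Fermat.Agent.S18.C.UnramVal

set_option autoImplicit false
set_option linter.unusedSectionVars false

noncomputable section

namespace Fermat.Agent.S37.Diff.OrthoW

open Fermat.Agent.S37.Deuring.Core Fermat.Agent.S37.Deuring.GaussLemmas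
  Fermat.Agent.S37.Deuring.OrthoBasis
open AlgebraicCurve Polynomial

variable {L : Type*} [Field L] {k : Type*} [Field k]
variable {A : ValuationSubring L} {π : A →+* k}
variable {FL : Type*} [Field FL] [Algebra L FL] {Fk : Type*} [Field Fk] [Algebra k Fk]
variable (G : GaussDatum A π FL Fk)

/-- **Orthonormal bases of finite-dimensional subspaces.**  If `x, u i ∈ O` are such that the
monomials `x̄ ^ e * ū i` are `k`-linearly independent and every element of `FL` is, up to a
nonzero denominator in `L[x]`, an `L[x]`-combination of the `u i`, then every finite-dimensional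
`L`-subspace `W` of `FL` contains `dim W` elements of `O` with `k`-independent reductions. -/
theorem exists_red_independent_of_onb {ι : Type*} (x : G.O) (u : ι → G.O)
    (hx : Transcendental k (G.red x))
    (hi : LinearIndependent k fun p : ι × ℕ => G.red x ^ p.2 * G.red (u p.1))
    (hii : ∀ f : FL, ∃ q : L[X], q ≠ 0 ∧
      aeval (x : FL) q * f ∈ polySpan (L := L) (x : FL) fun i => ((u i : G.O) : FL))
    (W₀ : Submodule L FL) [hfin : FiniteDimensional L W₀] :
    ∃ g : Fin (Module.finrank L W₀) → G.O, (∀ j, ((g j : G.O) : FL) ∈ W₀) ∧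
      LinearIndependent k fun j => G.red (g j) := by
  classical
  set M₀ : Submodule L FL := polySpan (L := L) (x : FL) fun i => ((u i : G.O) : FL) with hM₀
  -- common denominator
  have hden : ∃ q : L[X], q ≠ 0 ∧ ∀ f ∈ W₀, aeval (x : FL) q * f ∈ M₀ := by
    obtain ⟨S, hS⟩ := (Submodule.fg_iff_finiteDimensional W₀).mpr hfin
    have key : ∀ S : Finset FL, ∃ q : L[X], q ≠ 0 ∧ ∀ f ∈ S, aeval (x : FL) q * f ∈ M₀ := by
      intro S
      induction S using Finset.induction_on with
      | empty => exact ⟨1, one_ne_zero, by simp⟩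
      | insert a S _ ih =>
        obtain ⟨q, hq, hqS⟩ := ih
        obtain ⟨qa, hqa, ha'⟩ := hii a
        refine ⟨qa * q, mul_ne_zero hqa hq, fun f hf => ?_⟩
        rw [Finset.mem_insert] at hf
        rcases hf with rfl | hf
        · rw [map_mul, mul_comm (aeval (x : FL) qa), mul_assoc]
          exact aeval_mul_mem_polySpan _ _ q ha'
        · rw [map_mul, mul_assoc]
          exact aeval_mul_mem_polySpan _ _ qa (hqS f hf)
    obtain ⟨q, hq, hqS⟩ := key S
    refine ⟨q, hq, ?_⟩
    have hle : Submodule.span L (S : Set FL)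
        ≤ M₀.comap (LinearMap.mulLeft L (aeval (x : FL) q)) :=
      Submodule.span_le.mpr fun f hf => hqS f hf
    intro f hf
    rw [← hS] at hf
    exact hle hf
  obtain ⟨q, hq, hqV⟩ := hden
  -- normalise the denominator to a Gauss unit
  obtain ⟨c, hc, Q, hQ, hQπ⟩ := exists_scale_one (A := A) (π := π) q hq
  set y : G.O := evalO G x Q with hy
  have hycoe : (y : FL) = algebraMap L FL c * aeval (x : FL) q := by
    rw [hy, coe_evalO, hQ, map_mul, aeval_C]
  have hyred : G.red y ≠ 0 := by
    rw [hy, red_evalO]
    exact fun h => hQπ ((transcendental_iff.mp hx) _ h)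
  have hyu : IsUnit y := by
    by_contra h
    exact hyred ((G.red_eq_zero_iff y).mpr h)
  have hy0 : (y : FL) ≠ 0 := by
    intro h
    apply hyred
    have : y = 0 := Subtype.ext h
    rw [this, map_zero]
  set W : Submodule L FL := W₀.map (LinearMap.mulLeft L (y : FL)) with hW
  have hinj : Function.Injective (LinearMap.mulLeft L (y : FL)) := by
    intro a b h
    simp only [LinearMap.mulLeft_apply] at h
    exact mul_left_cancel₀ hy0 h
  have hrank : Module.finrank L W = Module.finrank L W₀ :=
    (Submodule.equivMapOfInjective _ hinj W₀).finrank_eq.symm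
  have hWM : W ≤ M₀ := by
    rintro _ ⟨f, hf, rfl⟩
    rw [LinearMap.mulLeft_apply, hycoe, mul_assoc, ← Algebra.smul_def]
    exact Submodule.smul_mem _ _ (hqV f hf)
  have hWfin : FiniteDimensional L W := inferInstance
  set w : ι × ℕ → G.O := fun p => x ^ p.2 * u p.1 with hw
  have hwli : LinearIndependent k fun p => G.red (w p) := by
    have : (fun p => G.red (w p)) = fun p : ι × ℕ => G.red x ^ p.2 * G.red (u p.1) := by
      funext p
      rw [hw, map_mul, map_pow]
    rw [this]
    exact hi
  have hWspan : W ≤ Submodule.span L (Set.range fun p => ((w p : G.O) : FL)) := hWM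
  obtain ⟨g, hgW, hgli⟩ := exists_red_independent G w hwli W hWspan
  -- divide by the unit `y`
  set a : G.O := ((hyu.unit⁻¹ : G.Oˣ) : G.O) with ha
  have hay : a * y = 1 := by
    rw [ha]
    exact hyu.val_inv_mul
  have hared : G.red a * G.red y = 1 := by rw [← map_mul, hay, map_one]
  have hared0 : G.red a ≠ 0 := left_ne_zero_of_mul_eq_one hared
  have haycoe : (a : FL) * (y : FL) = 1 := congrArg Subtype.val hay
  refine ⟨fun j => a * g (Fin.cast hrank.symm j), fun j => ?_, ?_⟩
  · obtain ⟨f, hf, hfg⟩ := hgW (Fin.cast hrank.symm j)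
    rw [LinearMap.mulLeft_apply] at hfg
    have : ((a * g (Fin.cast hrank.symm j) : G.O) : FL) = f := by
      rw [show ((a * g (Fin.cast hrank.symm j) : G.O) : FL)
        = (a : FL) * (g (Fin.cast hrank.symm j) : FL) from rfl, ← hfg, ← mul_assoc,
        haycoe, one_mul]
    rw [this]
    exact hf
  · have hgli' : LinearIndependent k fun j => G.red (g (Fin.cast hrank.symm j)) :=
      hgli.comp _ (Fin.cast_injective _)
    have : (fun j => G.red (a * g (Fin.cast hrank.symm j)))
        = (LinearMap.mulLeft k (G.red a)) ∘ fun j => G.red (g (Fin.cast hrank.symm j)) := by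
      funext j
      rw [Function.comp_apply, LinearMap.mulLeft_apply, map_mul]
    rw [this]
    refine hgli'.map' _ (LinearMap.ker_eq_bot.mpr ?_)
    intro b b' h
    simp only [LinearMap.mulLeft_apply] at h
    exact mul_left_cancel₀ hared0 h

/-! ### The hypotheses `(i)`, `(ii)` from an orthonormal basis over `RatFunc` -/

section Rat

variable {K : Type*} [Field K] {F : Type*} [Field F] [Algebra K F]
  [Algebra (RatFunc K) F] [IsScalarTower K (RatFunc K) F]

/-- polynomials of `RatFunc K` act on `F` by evaluation at the image of `X` -/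
theorem algebraMap_poly (p : K[X]) :
    algebraMap (RatFunc K) F (algebraMap K[X] (RatFunc K) p) =
      aeval (algebraMap (RatFunc K) F RatFunc.X) p := by
  have h : (algebraMap (RatFunc K) F).comp (algebraMap K[X] (RatFunc K)) =
      (aeval (R := K) (algebraMap (RatFunc K) F RatFunc.X)).toRingHom := by
    refine Polynomial.ringHom_ext (fun a => ?_) ?_
    · simp only [RingHom.comp_apply, AlgHom.toRingHom_eq_coe, RingHom.coe_coe, aeval_C]
      rw [RatFunc.algebraMap_C, ← RatFunc.algebraMap_eq_C, ← IsScalarTower.algebraMap_apply]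
    · simp only [RingHom.comp_apply, AlgHom.toRingHom_eq_coe, RingHom.coe_coe, aeval_X,
        RatFunc.algebraMap_X]
  exact congrFun (congrArg DFunLike.coe h) p

/-- `(i)` from linear independence over `RatFunc K` -/
theorem linearIndependent_monomials_rat {ι : Type*} (z : ι → F)
    (hz : LinearIndependent (RatFunc K) z) :
    LinearIndependent K fun p : ι × ℕ => algebraMap (RatFunc K) F RatFunc.X ^ p.2 * z p.1 := by
  have hb : LinearIndependent K fun e : ℕ => (RatFunc.X : RatFunc K) ^ e :=
    linearIndependent_pow_of_transcendental RatFunc.transcendental_X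
  have h := linearIndependent_smul hb hz
  have h2 := h.comp (fun p : ι × ℕ => (p.2, p.1)) (fun a b hab => by
    simp only [Prod.mk.injEq] at hab
    exact Prod.ext hab.2 hab.1)
  have : ((fun p : ℕ × ι => (RatFunc.X : RatFunc K) ^ p.1 • z p.2) ∘
      fun p : ι × ℕ => (p.2, p.1))
      = fun p : ι × ℕ => algebraMap (RatFunc K) F RatFunc.X ^ p.2 * z p.1 := by
    funext p
    simp only [Function.comp_apply]
    rw [Algebra.smul_def, map_pow]
  rwa [this] at h2

/-- `(ii)` from a spanning family over `RatFunc K` -/
theorem exists_denominator_rat {ι : Type*} [Fintype ι] (u : ι → F)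
    (hspan : ⊤ ≤ Submodule.span (RatFunc K) (Set.range u)) (f : F) :
    ∃ q : K[X], q ≠ 0 ∧ aeval (algebraMap (RatFunc K) F RatFunc.X) q * f ∈
      polySpan (L := K) (algebraMap (RatFunc K) F RatFunc.X) u := by
  classical
  set x : F := algebraMap (RatFunc K) F RatFunc.X with hx
  have hf : f ∈ Submodule.span (RatFunc K) (Set.range u) := hspan Submodule.mem_top
  obtain ⟨c, hc⟩ := (Submodule.mem_span_range_iff_exists_fun (RatFunc K)).mp hf
  refine ⟨∏ i, (c i).denom, Finset.prod_ne_zero_iff.mpr fun i _ => RatFunc.denom_ne_zero _, ?_⟩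
  rw [← hc, Finset.mul_sum]
  refine Submodule.sum_mem _ fun i _ => ?_
  have hu : u i ∈ polySpan (L := K) x u :=
    Submodule.subset_span ⟨(i, 0), by simp⟩
  have hden : algebraMap K[X] (RatFunc K) (c i).denom ≠ 0 :=
    (map_ne_zero_iff _ (RatFunc.algebraMap_injective K)).mpr (RatFunc.denom_ne_zero _)
  have hci : algebraMap K[X] (RatFunc K) (∏ j, (c j).denom) * c i =
      algebraMap K[X] (RatFunc K) ((c i).num * ∏ j ∈ Finset.univ.erase i, (c j).denom) := by
    rw [← Finset.mul_prod_erase Finset.univ (fun j => (c j).denom) (Finset.mem_univ i), map_mul,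
      map_mul]
    have h1 : algebraMap K[X] (RatFunc K) (c i).denom * c i =
        algebraMap K[X] (RatFunc K) (c i).num := by
      have h2 := RatFunc.num_div_denom (c i)
      rw [div_eq_iff hden] at h2
      rw [h2, mul_comm]
    rw [mul_right_comm, h1]
  have : aeval x (∏ j, (c j).denom) * (c i • u i)
      = aeval x ((c i).num * ∏ j ∈ Finset.univ.erase i, (c j).denom) * u i := by
    rw [Algebra.smul_def, ← mul_assoc, ← algebraMap_poly, ← algebraMap_poly, ← map_mul, hci]
  rw [this]
  exact aeval_mul_mem_polySpan x u _ hu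

end Rat

/-! ### The combined statement, in the setting of `S18/C/UnramVal.Hyp` -/

section Combined

open Fermat.Agent.S18.C.UnramVal

variable [Algebra (RatFunc L) FL] [IsScalarTower L (RatFunc L) FL] [FiniteDimensional (RatFunc L) FL]
variable [Algebra (RatFunc k) Fk] [IsScalarTower k (RatFunc k) Fk]

/-- **Orthonormal bases of finite-dimensional subspaces**, from an orthonormal basis of `FL` over
`RatFunc L` in the shape of `UnramVal.Hyp`. -/
theorem exists_red_independent_of_hyp
    (hx : algebraMap (RatFunc L) FL RatFunc.X ∈ G.O)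
    (hrx : G.red ⟨_, hx⟩ = algebraMap (RatFunc k) Fk RatFunc.X)
    {redV : ↥(below (RatFunc L) G.O) →+* RatFunc k} {ι : Type*} [Fintype ι] {t : ι → G.O}
    (h : Hyp (RatFunc L) G.O G.red redV t)
    (W₀ : Submodule L FL) [FiniteDimensional L W₀] :
    ∃ g : Fin (Module.finrank L W₀) → G.O, (∀ j, ((g j : G.O) : FL) ∈ W₀) ∧
      LinearIndependent k fun j => G.red (g j) := by
  classical
  have htr : Transcendental k (G.red ⟨_, hx⟩) := by
    rw [hrx]
    exact (transcendental_algebraMap_iff (algebraMap (RatFunc k) Fk).injective).mpr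
      RatFunc.transcendental_X
  have hi : LinearIndependent k fun p : ι × ℕ =>
      G.red (⟨_, hx⟩ : G.O) ^ p.2 * G.red (t p.1) := by
    have h1 := linearIndependent_monomials_rat (K := k) (fun i => G.red (t i)) h.indep
    rw [← hrx] at h1
    exact h1
  have hspan : ⊤ ≤ Submodule.span (RatFunc L) (Set.range fun i => ((t i : G.O) : FL)) := by
    have hb := h.basisE.span_eq
    have : Set.range (h.basisE) = Set.range fun i => ((t i : G.O) : FL) := by
      congr 1
      funext i
      exact h.basisE_apply i
    rw [this] at hb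
    exact hb.ge
  have hii : ∀ f : FL, ∃ q : L[X], q ≠ 0 ∧
      aeval (((⟨_, hx⟩ : G.O) : G.O) : FL) q * f ∈
        polySpan (L := L) (((⟨_, hx⟩ : G.O) : G.O) : FL) fun i => ((t i : G.O) : FL) :=
    fun f => exists_denominator_rat (K := L) (fun i => ((t i : G.O) : FL)) hspan f
  exact exists_red_independent_of_onb G ⟨_, hx⟩ t htr hi hii W₀

end Combined

end Fermat.Agent.S37.Diff.OrthoW
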