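/-
PROJECT I (S37), slice I-1b-diff, CONSEQUENCE (helper23): `ReductionInputsModL A N` is
UNCONDITIONAL for every valuation ring `A` of `ℚ̄` over a prime `ℓ ∤ N` with `ℓ ≠ 2, 3`.

`ReductionInputsX0.reductionInputsModL_X0` (helper11) + `Diff/GenusX0.genus_le`.
-/
import Mathlib
import Fermat.Agent.S37.Diff.GenusX0
import Fermat.Agent.S37.ReductionInputsX0

set_option autoImplicit false

namespace Fermat.Agent.S37.Diff.ReductionInputsTame

open ModularCurve

local notation "Kb" => AlgebraicClosure ℚ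

/-- **The reduction inputs of `X₀(N)` at every `A` over `ℓ ∤ N`, `ℓ ≠ 2, 3`.** -/
theorem reductionInputsModL_of_ne (N : ℕ) [NeZero N] {ℓ : ℕ} [Fact ℓ.Prime]
    (A : ValuationSubring Kb) (hA : A.LiesOverPrime ℓ) (hℓN : ¬ ℓ ∣ N)
    (h2 : ℓ ≠ 2) (h3 : ℓ ≠ 3) : ReductionInputsModL A N :=
  Fermat.Agent.S37.ReductionInputsX0.reductionInputsModL_X0 N A hA hℓN
    (Fermat.Agent.S37.Diff.GenusX0.genus_le hA hℓN h2 h3)

/-- the same, with the hypothesis `5 ≤ ℓ` -/
theorem reductionInputsModL_of_five_le (N : ℕ) [NeZero N] {ℓ : ℕ} [Fact ℓ.Prime]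
    (A : ValuationSubring Kb) (hA : A.LiesOverPrime ℓ) (hℓN : ¬ ℓ ∣ N)
    (h5 : 5 ≤ ℓ) : ReductionInputsModL A N :=
  reductionInputsModL_of_ne N A hA hℓN (by omega) (by omega)

end Fermat.Agent.S37.Diff.ReductionInputsTame
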